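import Fermat.Agent.EigenReps.Approx
import Fermat.Agent.Deformation.Bridge
import Fermat.Prelude.Def_CuspForm_HeckeGaloisRepDatum

/-!
# The representation of a Hecke datum is unramified away from its set of primes

Modulo every power of the maximal ideal the trace agrees with the pseudo-character of the Hecke
algebra, whose values are unchanged by inertia.
-/

set_option autoImplicit false

noncomputable section

set_option synthInstance.maxHeartbeats 400000
set_option maxHeartbeats 1000000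
set_option linter.style.haveILetI false

open Polynomial

namespace FLTAgent.EigenReps

local notation "LL" => AlgebraicClosure ℚ
local notation "GG" => (AlgebraicClosure ℚ ≃ₐ[ℚ] AlgebraicClosure ℚ)

/-- Trace and determinant of a matrix from its characteristic polynomial. -/
theorem trace_det_of_charpoly {A : Type*} [CommRing A] [Nontrivial A]
    (M : Matrix (Fin 2) (Fin 2) A) {a d : A} (h : M.charpoly = X ^ 2 - C a * X + C d) :
    M.trace = a ∧ M.det = d := by
  rw [Matrix.charpoly_fin_two] at h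
  have h0 := congrArg (fun f => Polynomial.coeff f 0) h
  have h1 := congrArg (fun f => Polynomial.coeff f 1) h
  simp [coeff_X_pow, coeff_C, coeff_X] at h0 h1
  exact ⟨h1, h0⟩

/-- The Cayley-Hamilton recursion. -/
theorem mul_self_fin_two {A : Type*} [CommRing A] (M : Matrix (Fin 2) (Fin 2) A) :
    M * M = M.trace • M - M.det • 1 := by
  ext i j
  fin_cases i <;> fin_cases j <;>
    simp [Matrix.mul_apply, Fin.sum_univ_two, Matrix.trace_fin_two, Matrix.det_fin_two] <;> ring

/-- Traces of powers are determined by the trace and the determinant. -/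
theorem map_trace_pow {A R G : Type*} [CommRing A] [CommRing R] [Group G] (f : A →+* R)
    (P : PseudoChar G R) (r : G →* Matrix (Fin 2) (Fin 2) A) {τ : G}
    (htr : f (r τ).trace = P.tr τ) (hdet : f (r τ).det = P.det τ) (k : ℕ) :
    f (r (τ ^ k)).trace = P.tr (τ ^ k) := by
  suffices h : f (r (τ ^ k)).trace = P.tr (τ ^ k) ∧
      f (r (τ ^ (k + 1))).trace = P.tr (τ ^ (k + 1)) from h.1
  induction k with
  | zero =>
    refine ⟨?_, by simpa using htr⟩
    rw [pow_zero, map_one, P.tr_one, Matrix.trace_one, Fintype.card_fin, map_natCast]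
    norm_num
  | succ k ih =>
    refine ⟨ih.2, ?_⟩
    have hx : τ ^ (k + 1 + 1) = τ ^ k * τ * τ := by rw [pow_succ, pow_succ]
    have hr : r (τ ^ (k + 1 + 1)) =
        (r τ).trace • r (τ ^ (k + 1)) - (r τ).det • r (τ ^ k) := by
      rw [hx, map_mul, map_mul, mul_assoc, mul_self_fin_two, mul_sub, Matrix.mul_smul,
        Matrix.mul_smul, mul_one, ← map_mul, ← pow_succ]
    rw [hr, Matrix.trace_sub, Matrix.trace_smul, Matrix.trace_smul, map_sub, smul_eq_mul,
      smul_eq_mul, map_mul, map_mul, htr, hdet, ih.1, ih.2, hx, P.tr_mul_self, ← pow_succ]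

section Residual

variable {A : Type} [CommRing A] [IsLocalRing A]

/-- Residual absolute irreducibility makes the residual matrices span. -/
theorem spansResidue_matOf (ρ : GaloisRepAdic A) (b : Module.Basis (Fin 2) A ρ.V)
    (habs : ρ.residual.IsAbsolutelyIrreducible) :
    Deformation.SpansResidue (Deformation.matOf ρ b) := by
  let bres : Module.Basis (Fin 2) (IsLocalRing.ResidueField A) ρ.residual.V :=
    Algebra.TensorProduct.basis (IsLocalRing.ResidueField A) b
  have h := Deformation.span_resMat_eq_top ρ.residual bres habs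
  have heq : (fun σ => (Deformation.matOf ρ b σ).map (IsLocalRing.residue A)) =
      Deformation.resMat ρ.residual bres := by
    funext σ
    ext i j
    show IsLocalRing.residue A (Deformation.matOf ρ b σ i j) =
      LinearMap.toMatrixAlgEquiv bres (ρ.residual.ρ σ) i j
    rw [LinearMap.toMatrixAlgEquiv_apply]
    show _ = (Algebra.TensorProduct.basis (IsLocalRing.ResidueField A) b).repr
      ((ρ.ρ σ).baseChange (IsLocalRing.ResidueField A)
        (Algebra.TensorProduct.basis (IsLocalRing.ResidueField A) b j)) i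
    rw [Algebra.TensorProduct.basis_apply, LinearMap.baseChange_tmul,
      Algebra.TensorProduct.basis_repr_tmul]
    simp [Deformation.matOf_apply, IsLocalRing.ResidueField.algebraMap_eq]
  rw [Deformation.SpansResidue, heq]
  exact h

/-- An element which does not change any trace acts as the identity. -/
theorem eq_one_of_trace_mul (ρ : GaloisRepAdic A) (b : Module.Basis (Fin 2) A ρ.V)
    (habs : ρ.residual.IsAbsolutelyIrreducible) {σ : GG}
    (h : ∀ g : GG, (Deformation.matOf ρ b (g * σ)).trace = (Deformation.matOf ρ b g).trace) :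
    ρ.ρ σ = 1 := by
  have hspan := Deformation.span_range_eq_top (spansResidue_matOf ρ b habs)
  have h0 : Deformation.matOf ρ b σ - 1 = 0 := by
    refine Deformation.eq_zero_of_forall_trace_mul fun y => ?_
    rw [Matrix.trace_mul_comm]
    have hy : y ∈ Submodule.span A (Set.range (Deformation.matOf ρ b)) := hspan ▸ trivial
    induction hy using Submodule.span_induction with
    | mem _ hx =>
      obtain ⟨g, rfl⟩ := hx
      rw [mul_sub, mul_one, Matrix.trace_sub, ← map_mul, h g, sub_self]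
    | zero => simp
    | add _ _ _ _ hu hv => rw [add_mul, Matrix.trace_add, hu, hv, add_zero]
    | smul c u _ hu => rw [Matrix.smul_mul, Matrix.trace_smul, hu, smul_zero]
  refine (LinearMap.toMatrixAlgEquiv b).injective ?_
  rw [map_one]
  exact sub_eq_zero.mp h0

end Residual

section Datum

variable {p : ℕ} [Fact p.Prime] {N : ℕ} [NeZero N] {S : Finset ℕ}
  {𝒪 : Type} [CommRing 𝒪] [IsDomain 𝒪] [IsDiscreteValuationRing 𝒪]
  [IsAdicComplete (IsLocalRing.maximalIdeal 𝒪) 𝒪]
  {θ : CuspForm.heckeAlgebra N 2 (↑S : Set ℕ) →+* IsLocalRing.ResidueField 𝒪}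
  {T : Type} [CommRing T] [IsLocalRing T] [IsNoetherianRing T]
  [IsAdicComplete (IsLocalRing.maximalIdeal T) T] [Algebra 𝒪 T] [IsLocalHom (algebraMap 𝒪 T)]
  [Module.Finite 𝒪 T] [Module.Free 𝒪 T]

omit [Fact p.Prime] [IsDomain 𝒪] [IsDiscreteValuationRing 𝒪]
  [IsAdicComplete (IsLocalRing.maximalIdeal 𝒪) 𝒪] [IsNoetherianRing T]
  [IsAdicComplete (IsLocalRing.maximalIdeal T) T] [Module.Finite 𝒪 T] [Module.Free 𝒪 T] in
theorem natCast_mem_maximalIdeal [IsLocalRing 𝒪] (hp𝒪 : (p : 𝒪) ∈ IsLocalRing.maximalIdeal 𝒪) :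
    (p : T) ∈ IsLocalRing.maximalIdeal T := by
  rw [← map_natCast (algebraMap 𝒪 T) p]
  exact map_nonunit (algebraMap 𝒪 T) _ hp𝒪

omit [Fact p.Prime] [IsNoetherianRing T] [IsAdicComplete (IsLocalRing.maximalIdeal T) T] in
theorem natCast_pow_quotient (hp𝒪 : (p : T) ∈ IsLocalRing.maximalIdeal T) (m : ℕ) :
    (p : T ⧸ IsLocalRing.maximalIdeal T ^ m) ^ m = 0 := by
  rw [← map_natCast (Ideal.Quotient.mk (IsLocalRing.maximalIdeal T ^ m)) p, ← map_pow,
    Ideal.Quotient.eq_zero_iff_mem]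
  exact Ideal.pow_mem_pow hp𝒪 m

/-- Modulo `m^m` the trace is the pseudo-character. -/
theorem mk_trace_eq (hpS : p ∈ S) (hNS : ∀ q : ℕ, q.Prime → q ∣ N → q ∈ S)
    (H : CuspForm.HeckeGaloisRepDatum N (↑S : Set ℕ) 𝒪 θ T)
    (hpT : (p : T) ∈ IsLocalRing.maximalIdeal T) (b : Module.Basis (Fin 2) T H.ρ.V) (m : ℕ)
    (σ : GG) :
    Ideal.Quotient.mk (IsLocalRing.maximalIdeal T ^ m) (Deformation.matOf H.ρ b σ).trace =
      (pseudoChar N S p hpS hNS
        ((Ideal.Quotient.mk (IsLocalRing.maximalIdeal T ^ m)).comp H.π)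
        (natCast_pow_quotient hpT m)).tr σ := by
  set P := pseudoChar N S p hpS hNS
    ((Ideal.Quotient.mk (IsLocalRing.maximalIdeal T ^ m)).comp H.π) (natCast_pow_quotient hpT m)
  set f := Ideal.Quotient.mk (IsLocalRing.maximalIdeal T ^ m)
  obtain ⟨L1, hL1, hP⟩ := exists_pseudoChar_level N S p hpS hNS
    (f.comp H.π) (natCast_pow_quotient hpT m)
  obtain ⟨L2, hL2, hr⟩ := Deformation.matCts_matOf H.ρ b m
  haveI := hL1
  haveI := hL2
  obtain ⟨ℓ, A, τ, k, hℓ, hℓS, hA, hτ, hσ⟩ :=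
    Frobenius.exists_frobenius_pow_eqOn (L1 ⊔ L2) σ S
  have hℓN : ¬ ℓ ∣ N := fun h => hℓS (hNS ℓ hℓ h)
  have hℓS' : ℓ ∉ (↑S : Set ℕ) := hℓS
  obtain ⟨htrτ, hdetτ⟩ := pseudoChar_frobenius N S p hpS hNS (f.comp H.π)
    (natCast_pow_quotient hpT m) hℓ hℓN hℓS' hA hτ
  have hcp : (Deformation.matOf H.ρ b τ).charpoly =
      X ^ 2 - C (H.π (CuspForm.heckeAlgebra.T hℓ hℓN hℓS')) * X + C ((ℓ : T)) :=
    (LinearMap.charpoly_toMatrix (H.ρ.ρ τ) b).trans (H.charpoly_frob ℓ hℓ hℓN hℓS' A hA τ hτ)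
  obtain ⟨ht, hd⟩ := trace_det_of_charpoly _ hcp
  have hpow := map_trace_pow f P (Deformation.matOf H.ρ b) (τ := τ)
    (by rw [ht, htrτ]; rfl) (by rw [hd, hdetτ, map_natCast]) k
  set ε := (τ ^ k)⁻¹ * σ
  have hε : ∀ a ∈ L1 ⊔ L2, ε a = a := fun a ha => by
    rw [show ε a = (τ ^ k)⁻¹ (σ a) from rfl, hσ a ha]
    exact (τ ^ k).symm_apply_apply a
  have hσε : σ = τ ^ k * ε := by rw [mul_inv_cancel_left]
  rw [hσε, map_mul, (hP ε fun a ha => hε a ((le_sup_left : L1 ≤ L1 ⊔ L2) ha)).2, ← hpow]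
  have hε2 := hr ε fun a ha => hε a ((le_sup_right : L2 ≤ L1 ⊔ L2) ha)
  rw [show Deformation.matOf H.ρ b (τ ^ k) * Deformation.matOf H.ρ b ε =
      Deformation.matOf H.ρ b (τ ^ k) +
        Deformation.matOf H.ρ b (τ ^ k) * (Deformation.matOf H.ρ b ε - 1) by
    rw [mul_sub, mul_one, add_sub_cancel], Matrix.trace_add, map_add, add_eq_left,
    Ideal.Quotient.eq_zero_iff_mem, Matrix.trace]
  refine Ideal.sum_mem _ fun i _ => ?_
  rw [Matrix.diag_apply, Matrix.mul_apply]
  exact Ideal.sum_mem _ fun j _ => Ideal.mul_mem_left _ _ (hε2 j i)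

/-- Inertia away from `S` acts trivially. -/
theorem isUnramifiedAt_of_notMem (hp𝒪 : (p : 𝒪) ∈ IsLocalRing.maximalIdeal 𝒪) (hpS : p ∈ S)
    (hNS : ∀ q : ℕ, q.Prime → q ∣ N → q ∈ S)
    (H : CuspForm.HeckeGaloisRepDatum N (↑S : Set ℕ) 𝒪 θ T)
    (q : ℕ) (hq : q.Prime) (hqS : q ∉ S) : H.ρ.IsUnramifiedAt q := by
  intro A hA σ hσ
  obtain ⟨b⟩ := Deformation.nonempty_basis H.ρ
  have hpT : (p : T) ∈ IsLocalRing.maximalIdeal T := natCast_mem_maximalIdeal hp𝒪
  refine eq_one_of_trace_mul H.ρ b H.residual_absIrr fun g => sub_eq_zero.mp ?_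
  have hbot := IsHausdorff.iInf_pow_smul
    (inferInstance : IsHausdorff (IsLocalRing.maximalIdeal T) T)
  have hmem : (Deformation.matOf H.ρ b (g * σ)).trace - (Deformation.matOf H.ρ b g).trace ∈
      (⨅ i : ℕ, IsLocalRing.maximalIdeal T ^ i • (⊤ : Submodule T T)) := by
    rw [Submodule.mem_iInf]
    intro m
    rw [smul_eq_mul, Ideal.mul_top, ← Ideal.Quotient.eq_zero_iff_mem, map_sub,
      mk_trace_eq hpS hNS H hpT b m, mk_trace_eq hpS hNS H hpT b m,
      (pseudoChar_inertia N S p hpS hNS _ _ hq (fun h => hqS (hNS q hq h))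
        (fun h => hqS (h ▸ hpS)) hA hσ).2 g, sub_self]
  rwa [hbot, Submodule.mem_bot] at hmem

end Datum

end FLTAgent.EigenReps
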