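import Fermat.Agent.EigenReps.Hecke

/-!
# Pseudo-characters modulo powers of `p`

For a ring homomorphism `θ` of the Hecke algebra to a ring in which `p^e = 0` the values at the
lifts of level `shift + e` form a two dimensional pseudo-character.
-/

set_option autoImplicit false

noncomputable section

set_option synthInstance.maxHeartbeats 400000
set_option maxHeartbeats 1000000
set_option linter.style.haveILetI false

open AlgebraicCurve ModularCurve FLTAgent.DetCyclo

namespace FLTAgent.EigenReps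

local notation "LL" => AlgebraicClosure ℚ
local notation "GG" => (AlgebraicClosure ℚ ≃ₐ[ℚ] AlgebraicClosure ℚ)

/-- Inertia fixes roots of unity of order prime to the residue characteristic. -/
theorem inertia_fix_root {q m : ℕ} (hq : q.Prime) {V : ValuationSubring LL}
    (hV : V.LiesOverPrime q) (hqm : ¬ q ∣ m) {η : LL} (hη : η ^ m = 1) {τ : GG}
    (hτ : τ ∈ V.inertiaSubgroupIn ℚ) : τ η = η := by
  have hm : m ≠ 0 := fun h => hqm (h ▸ dvd_zero q)
  have hη0 : η ≠ 0 := fun h => by rw [h, zero_pow hm] at hη; exact zero_ne_one hη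
  have hηV : η ∈ V := Kronecker.mem_of_pow_eq_one V hm hη
  have hinv : η⁻¹ ∈ V := Kronecker.mem_of_pow_eq_one V hm (by rw [inv_pow, hη, inv_one])
  have h := ((Places.mem_inertia_iff V).mp hτ).2 η hηV
  have h1 : τ η * η⁻¹ - 1 ∈ V.nonunits := by
    rw [show τ η * η⁻¹ - 1 = (τ η - η) * η⁻¹ by rw [sub_mul, mul_inv_cancel₀ hη0]]
    rw [← SetLike.mem_coe, ← ValuationSubring.image_maximalIdeal] at h ⊢
    obtain ⟨u, hu, hu'⟩ := h
    exact ⟨u * ⟨_, hinv⟩, Ideal.mul_mem_right _ _ hu, by rw [← hu']; rfl⟩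
  have h2 := Reducible.eq_one_of_sub_one_mem_nonunits (p := m)
    (by rw [mul_pow, ← map_pow, hη, map_one, inv_pow, hη, inv_one, one_mul])
    (Reducible.natCast_notMem_nonunits hq hV hqm) h1
  rwa [mul_inv_eq_one₀ hη0] at h2

variable (N : ℕ) [NeZero N] (S : Finset ℕ) (p : ℕ) [hp : Fact p.Prime]
  (hpS : p ∈ S) (hNS : ∀ q : ℕ, q.Prime → q ∣ N → q ∈ S)

variable {N S p}

/-- The exponent may be changed modulo `p^n`. -/
theorem IsLift.congr {n : ℕ} {σ : GG} {c c' : ℕ} {t : CuspForm.heckeAlgebra N 2 (↑S : Set ℕ)}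
    (h : IsLift N S p n σ c t) (h' : CycloExponent p n σ c') : IsLift N S p n σ c' t := by
  refine ⟨h', fun x => (h.2 x).trans ?_⟩
  congr 1
  refine nsmul_eq_of_modEq N (h.1.modEq h') ?_
  rw [nsmul_galois_smul, (mem_torsion_iff_nsmul N).1 x.2, galois_smul_zero]

/-- Lifts of the same automorphism differ by a multiple of a power of `p`. -/
theorem IsLift.eq_add {n : ℕ} (hn : shift N S p ≤ n) {σ : GG} {c c' : ℕ}
    {t t' : CuspForm.heckeAlgebra N 2 (↑S : Set ℕ)} (h : IsLift N S p n σ c t)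
    (h' : IsLift N S p n σ c' t') :
    ∃ s, t = t' + ((p : ℕ) ^ (n - shift N S p) : ℕ) • s := by
  obtain ⟨s, hs⟩ := shift_spec N S p n (t - t') hn (fun x => Subtype.ext (by
    rw [coe_act_sub, h.2 x, (h'.congr h.1).2 x, sub_self]
    rfl))
  exact ⟨s, eq_add_of_sub_eq' hs⟩

/-- The Hecke operator of a lift of a product. -/
theorem IsLift.mul_identity {n : ℕ} {g h : GG} {c d d' : ℕ}
    {t u w v : CuspForm.heckeAlgebra N 2 (↑S : Set ℕ)}
    (hpS : p ∈ S) (hNS : ∀ q : ℕ, q.Prime → q ∣ N → q ∈ S)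
    (ht : IsLift N S p n g c t) (hu : IsLift N S p n h d u)
    (hw : IsLift N S p n (g * h) (c * d) w) (hv : IsLift N S p n (g * h⁻¹) (c * d') v)
    (hdd : d * d' ≡ 1 [MOD p ^ n]) (x : Pic0.torsion LL (modularFunctionFieldBar N) (p ^ n)) :
    (act N S (p ^ n) (t * u - (w + d • v)) x : JZero N) = 0 := by
  have hx : p ^ n • (x : JZero N) = 0 := (mem_torsion_iff_nsmul N).1 x.2
  set x' : Pic0.torsion LL (modularFunctionFieldBar N) (p ^ n) :=
    ⟨g⁻¹ • (x : JZero N), by
      rw [mem_torsion_iff_nsmul, nsmul_galois_smul, hx, galois_smul_zero]⟩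
  have hcomm := act_comm N S p hpS hNS n u g⁻¹ x x' rfl
  rw [hu.2 x', hu.2 x] at hcomm
  have hdd' : (d * (c * d')) • (h • g⁻¹ • (x : JZero N)) = c • (h • g⁻¹ • (x : JZero N)) := by
    refine nsmul_eq_of_modEq N (m := p ^ n) ?_ ?_
    · calc d * (c * d') = c * (d * d') := by ring
        _ ≡ c * 1 [MOD p ^ n] := hdd.mul_left c
        _ = c := mul_one c
    · rw [nsmul_galois_smul, nsmul_galois_smul, hx, galois_smul_zero, galois_smul_zero]
  rw [coe_act_sub, coe_act_add, coe_act_nsmul, act_mul_apply N S p ht, hu.2 x, hw.2 x, hv.2 x,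
    ← hcomm]
  have gmul : ∀ (a b : GG) (y : JZero N), (a * b) • y = a • b • y := fun a b y => mul_smul a b y
  rw [show (x' : JZero N) = g⁻¹ • (x : JZero N) from rfl, mul_inv_rev, mul_inv_rev, inv_inv, gmul,
    gmul, gmul, gmul, smul_add, ← nsmul_galois_smul N d g, nsmul_add, nsmul_add, ← mul_nsmul',
    ← mul_nsmul', hdd']
  abel

variable (N S p)

/-- The chosen exponent. -/
def liftExp (n : ℕ) (σ : GG) : ℕ := (exists_lift N S p hpS hNS n σ).choose

/-- The chosen operator. -/
def liftOp (n : ℕ) (σ : GG) : CuspForm.heckeAlgebra N 2 (↑S : Set ℕ) :=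
  (exists_lift N S p hpS hNS n σ).choose_spec.choose

theorem isLift_liftOp {n n' : ℕ} (hn : n' ≤ n) (σ : GG) :
    IsLift N S p n' σ (liftExp N S p hpS hNS n σ) (liftOp N S p hpS hNS n σ) :=
  (exists_lift N S p hpS hNS n σ).choose_spec.choose_spec n' hn

variable {R : Type*} [CommRing R] {e : ℕ}

/-- The level used for rings killed by `p^e`. -/
def level (e : ℕ) : ℕ := shift N S p + e

theorem natCast_eq_of_modEq (he : (p : R) ^ e = 0) {a b : ℕ}
    (h : a ≡ b [MOD p ^ level N S p e]) : (a : R) = (b : R) := by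
  have h0 : ((p ^ level N S p e : ℕ) : R) = 0 := by
    rw [level, Nat.cast_pow, pow_add, he, mul_zero]
  have key : ∀ c : ℕ, (c : R) = ((c % p ^ level N S p e : ℕ) : R) := fun c => by
    conv_lhs => rw [← Nat.mod_add_div c (p ^ level N S p e)]
    rw [Nat.cast_add, Nat.cast_mul, h0, zero_mul, add_zero]
  rw [key a, key b]
  exact congrArg _ h

theorem map_eq_of_isLift (θ : CuspForm.heckeAlgebra N 2 (↑S : Set ℕ) →+* R) (he : (p : R) ^ e = 0)
    {σ : GG} {c c' : ℕ} {t t' : CuspForm.heckeAlgebra N 2 (↑S : Set ℕ)}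
    (h : IsLift N S p (level N S p e) σ c t) (h' : IsLift N S p (level N S p e) σ c' t') :
    θ t = θ t' ∧ (c : R) = (c' : R) := by
  refine ⟨?_, natCast_eq_of_modEq N S p he (h.1.modEq h'.1)⟩
  obtain ⟨s, rfl⟩ := h.eq_add (Nat.le_add_right _ _) h'
  rw [map_add, map_nsmul, nsmul_eq_mul, Nat.cast_pow,
    Nat.add_sub_cancel_left, he, zero_mul, add_zero]

/-- The pseudo-character of `θ`. -/
def pseudoChar (θ : CuspForm.heckeAlgebra N 2 (↑S : Set ℕ) →+* R) (he : (p : R) ^ e = 0) :
    PseudoChar GG R where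
  tr σ := θ (liftOp N S p hpS hNS (level N S p e) σ)
  det :=
    { toFun := fun σ => (liftExp N S p hpS hNS (level N S p e) σ : R)
      map_one' := by
        rw [(map_eq_of_isLift N S p θ he (isLift_liftOp N S p hpS hNS le_rfl 1)
          (isLift_one N S p _)).2, Nat.cast_one]
      map_mul' := fun g h => by
        rw [← Nat.cast_mul]
        exact natCast_eq_of_modEq N S p he
          ((isLift_liftOp N S p hpS hNS le_rfl (g * h)).1.modEq
            ((isLift_liftOp N S p hpS hNS le_rfl g).1.mul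
              (isLift_liftOp N S p hpS hNS le_rfl h).1)) }
  tr_one := by
    rw [(map_eq_of_isLift N S p θ he (isLift_liftOp N S p hpS hNS le_rfl 1)
      (isLift_one N S p _)).1, map_ofNat]
  tr_mul g h := by
    set n := level N S p e
    have L := fun σ => isLift_liftOp N S p hpS hNS (le_refl n) σ
    have hd' := (L h⁻¹).1
    have hdd : liftExp N S p hpS hNS n h * liftExp N S p hpS hNS n h⁻¹ ≡ 1 [MOD p ^ n] := by
      have h1 := (L h).1.mul hd'
      rw [mul_inv_cancel] at h1
      exact h1.modEq (isLift_one N S p n).1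
    have hw := (L (g * h)).congr ((L g).1.mul (L h).1)
    have hv := (L (g * h⁻¹)).congr ((L g).1.mul hd')
    obtain ⟨s, hs⟩ := shift_spec N S p n _ (Nat.le_add_right _ _)
      (fun x => Subtype.ext ((IsLift.mul_identity hpS hNS (L g) (L h) hw hv hdd x).trans rfl))
    have h2 := congrArg θ hs
    rw [map_sub, map_mul, map_add, map_nsmul, map_nsmul, nsmul_eq_mul, nsmul_eq_mul] at h2
    rw [show (((p : ℕ) ^ (n - shift N S p) : ℕ) : R) = 0 by
      rw [show n - shift N S p = e from Nat.add_sub_cancel_left _ _, Nat.cast_pow, he], zero_mul, sub_eq_zero] at h2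
    exact h2.symm

variable (θ : CuspForm.heckeAlgebra N 2 (↑S : Set ℕ) →+* R) (he : (p : R) ^ e = 0)

theorem pseudoChar_of_isLift {σ : GG} {c : ℕ} {t : CuspForm.heckeAlgebra N 2 (↑S : Set ℕ)}
    (h : IsLift N S p (level N S p e) σ c t) :
    (pseudoChar N S p hpS hNS θ he).tr σ = θ t ∧
      (pseudoChar N S p hpS hNS θ he).det σ = (c : R) :=
  map_eq_of_isLift N S p θ he (isLift_liftOp N S p hpS hNS le_rfl σ) h

/-- Frobenius elements have trace `θ T_ℓ` and determinant `ℓ`. -/
theorem pseudoChar_frobenius {ℓ : ℕ} (hℓ : ℓ.Prime) (hℓN : ¬ ℓ ∣ N) (hℓS : ℓ ∉ (↑S : Set ℕ))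
    {A : ValuationSubring LL} (hA : A.LiesOverPrime ℓ) {τ : GG} (hτ : A.IsFrobeniusAt τ ℓ) :
    (pseudoChar N S p hpS hNS θ he).tr τ = θ (CuspForm.heckeAlgebra.T hℓ hℓN hℓS) ∧
      (pseudoChar N S p hpS hNS θ he).det τ = (ℓ : R) :=
  pseudoChar_of_isLift N S p hpS hNS θ he (isLift_frobenius N S p hpS _ hℓ hℓN hℓS hA hτ)

/-- Elements acting trivially on torsion and on roots of unity do not change the values. -/
theorem pseudoChar_mul_trivial {τ : GG}
    (htors : ∀ x : JZero N, p ^ level N S p e • x = 0 → τ • x = x)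
    (hcyc : CycloExponent p (level N S p e) τ 1) :
    (pseudoChar N S p hpS hNS θ he).det τ = 1 ∧
      ∀ g, (pseudoChar N S p hpS hNS θ he).tr (g * τ) = (pseudoChar N S p hpS hNS θ he).tr g := by
  set n := level N S p e
  refine ⟨?_, fun g => ?_⟩
  · exact (natCast_eq_of_modEq N S p he
      ((isLift_liftOp N S p hpS hNS (le_refl n) τ).1.modEq hcyc)).trans Nat.cast_one
  · refine (pseudoChar_of_isLift N S p hpS hNS θ he (t := liftOp N S p hpS hNS n g)
      (c := liftExp N S p hpS hNS n g) ?_).1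
    obtain ⟨hc, hact⟩ := isLift_liftOp N S p hpS hNS (le_refl n) g
    refine ⟨by simpa using hc.mul hcyc, fun x => ?_⟩
    have hx : p ^ n • (x : JZero N) = 0 := (mem_torsion_iff_nsmul N).1 x.2
    have hgx : p ^ n • (g⁻¹ • (x : JZero N)) = 0 := by
      rw [nsmul_galois_smul, hx, galois_smul_zero]
    rw [hact x, mul_inv_rev, mul_smul, htors _ hx, mul_smul,
      inv_smul_eq_iff.2 (htors _ hgx).symm]

/-- Compatibility with maps of coefficient rings. -/
theorem map_pseudoChar {R' : Type*} [CommRing R'] {e' : ℕ} (f : R →+* R')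
    (he' : (p : R') ^ e' = 0) (σ : GG) :
    f ((pseudoChar N S p hpS hNS θ he).tr σ) =
        (pseudoChar N S p hpS hNS (f.comp θ) he').tr σ ∧
      f ((pseudoChar N S p hpS hNS θ he).det σ) =
        (pseudoChar N S p hpS hNS (f.comp θ) he').det σ := by
  set n := max (level N S p e) (level N S p e')
  obtain ⟨c, t, h⟩ := exists_lift N S p hpS hNS n σ
  have h1 := pseudoChar_of_isLift N S p hpS hNS θ he (h _ (le_max_left _ _))
  have h2 := pseudoChar_of_isLift N S p hpS hNS (f.comp θ) he' (h _ (le_max_right _ _))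
  rw [h1.1, h1.2, h2.1, h2.2, map_natCast]
  exact ⟨rfl, rfl⟩

/-- Complex conjugation has trace zero squared and determinant `-1`. -/
theorem pseudoChar_det_complexConjugation :
    (pseudoChar N S p hpS hNS θ he).det complexConjugation = -1 := by
  set n := level N S p e
  refine (natCast_eq_of_modEq N S p he ((isLift_liftOp N S p hpS hNS (le_refl n) _).1.modEq
    (cycloExponent_complexConjugation n))).trans ?_
  rw [Nat.cast_sub (Nat.one_le_pow _ _ hp.out.pos), Nat.cast_pow, Nat.cast_one,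
    show (p : R) ^ n = 0 from by rw [show n = shift N S p + e from rfl, pow_add, he, mul_zero],
    zero_sub]

include hpS hNS in
/-- The values factor through a number field. -/
theorem exists_pseudoChar_level :
    ∃ L : IntermediateField ℚ LL, FiniteDimensional ℚ L ∧ ∀ τ : GG, (∀ a ∈ L, τ a = a) →
      (pseudoChar N S p hpS hNS θ he).det τ = 1 ∧
        ∀ g, (pseudoChar N S p hpS hNS θ he).tr (g * τ) = (pseudoChar N S p hpS hNS θ he).tr g := by
  haveI : NeZero (p ^ level N S p e) := ⟨pow_ne_zero _ hp.out.ne_zero⟩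
  obtain ⟨L, hL, hfix⟩ := exists_torsion_level N (p ^ level N S p e)
  obtain ⟨ζ, hζ⟩ := exists_primitive_root_pow p (level N S p e)
  haveI : FiniteDimensional ℚ (IntermediateField.adjoin ℚ ({ζ} : Set LL)) :=
    IntermediateField.adjoin.finiteDimensional
      ((AlgebraicClosure.isAlgebraic ℚ).isAlgebraic ζ).isIntegral
  refine ⟨L ⊔ IntermediateField.adjoin ℚ ({ζ} : Set LL), inferInstance, fun τ hτ => ?_⟩
  refine pseudoChar_mul_trivial N S p hpS hNS θ he
    (hfix τ fun a ha => hτ a ((le_sup_left : L ≤ L ⊔ _) ha)) fun η hη => ?_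
  obtain ⟨i, -, rfl⟩ := hζ.eq_pow_of_pow_eq_one hη
  rw [map_pow, hτ ζ ((le_sup_right : _ ≤ L ⊔ _) (IntermediateField.subset_adjoin ℚ _ rfl)), pow_one]

/-- The values are unchanged by inertia away from `N p`. -/
theorem pseudoChar_inertia {q : ℕ} (hq : q.Prime) (hqN : ¬ q ∣ N) (hqp : q ≠ p)
    {A : ValuationSubring LL} (hA : A.LiesOverPrime q) {τ : GG}
    (hτ : τ ∈ A.inertiaSubgroupIn ℚ) :
    (pseudoChar N S p hpS hNS θ he).det τ = 1 ∧
      ∀ g, (pseudoChar N S p hpS hNS θ he).tr (g * τ) = (pseudoChar N S p hpS hNS θ he).tr g := by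
  have hqn : ¬ q ∣ p ^ level N S p e := fun h =>
    hqp ((Nat.prime_dvd_prime_iff_eq hq hp.out).1 (hq.dvd_of_dvd_pow h))
  refine pseudoChar_mul_trivial N S p hpS hNS θ he
    (fun x hx => inertia_smul_torsion N hq hqN hqn hA hτ hx) fun η hη => ?_
  rw [pow_one]
  exact inertia_fix_root hq hA hqn hη hτ

end FLTAgent.EigenReps
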