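import Mathlib

/-!
# Two dimensional pseudo-characters with a split element

A function `tr` on a group with `tr (gh) + det h * tr (gh⁻¹) = tr g * tr h` is the trace of a
two dimensional representation as soon as one element has two distinct eigenvalues in the field.
-/

set_option autoImplicit false

noncomputable section

open MonoidAlgebra

namespace FLTAgent.EigenReps

/-- A two dimensional pseudo-character. -/
structure PseudoChar (G k : Type*) [Group G] [CommRing k] where
  /-- The trace. -/
  tr : G → k
  /-- The determinant. -/
  det : G →* k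
  tr_one : tr 1 = 2
  tr_mul : ∀ g h, tr (g * h) + det h * tr (g * h⁻¹) = tr g * tr h

namespace PseudoChar

variable {G k : Type*} [Group G] [CommRing k] (P : PseudoChar G k)

/-- Change of coefficients. -/
def map {k' : Type*} [CommRing k'] (f : k →+* k') : PseudoChar G k' where
  tr g := f (P.tr g)
  det := f.toMonoidHom.comp P.det
  tr_one := by rw [P.tr_one, map_ofNat]
  tr_mul g h := by
    show f (P.tr (g * h)) + f (P.det h) * f (P.tr (g * h⁻¹)) = f (P.tr g) * f (P.tr h)
    rw [← map_mul, ← map_add, P.tr_mul, map_mul]

theorem det_mul_inv (g : G) : P.det g * P.det g⁻¹ = 1 := by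
  rw [← map_mul, mul_inv_cancel, map_one]

theorem det_mul_tr_inv (h : G) : P.det h * P.tr h⁻¹ = P.tr h := by
  have := P.tr_mul 1 h
  rw [one_mul, one_mul, P.tr_one] at this
  linear_combination this

theorem tr_comm (g h : G) : P.tr (g * h) = P.tr (h * g) := by
  have h1 := P.tr_mul g h
  have h2 := P.tr_mul h g
  have h3 := P.det_mul_tr_inv (g * h⁻¹)
  rw [mul_inv_rev, inv_inv, map_mul] at h3
  have h4 : P.det g * P.tr (h * g⁻¹) = P.det h * P.tr (g * h⁻¹) := by
    linear_combination P.det h * h3 - P.det g * P.tr (h * g⁻¹) * P.det_mul_inv h
  linear_combination h1 - h2 + h4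

theorem tr_mul_self (g x : G) :
    P.tr (x * g * g) = P.tr g * P.tr (x * g) - P.det g * P.tr x := by
  have := P.tr_mul (x * g) g
  rw [mul_inv_cancel_right] at this
  linear_combination this

theorem det_eq (g : G) : P.tr g * P.tr g - P.tr (g * g) = 2 * P.det g := by
  have := P.tr_mul_self g 1
  rw [one_mul, P.tr_one] at this
  linear_combination -this

/-- The trace identity in three variables. -/
theorem tr_cube (g h u : G) :
    P.tr g * P.tr h * P.tr u - P.tr g * P.tr (h * u) - P.tr h * P.tr (g * u)
      - P.tr u * P.tr (g * h) + P.tr (g * h * u) + P.tr (g * u * h) = 0 := by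
  have e1 := P.tr_mul g h
  have e2 := P.tr_mul (g * h⁻¹) u
  have e3 := P.tr_mul g (h * u)
  rw [mul_inv_rev, ← mul_assoc, map_mul] at e3
  have e4 := P.tr_mul (g * u) h
  rw [← mul_assoc] at e3
  have e5 : P.tr (g * h⁻¹ * u) + P.det u * P.tr (g * h⁻¹ * u⁻¹) =
      P.tr (g * u * h⁻¹) + P.det u * P.tr (g * u⁻¹ * h⁻¹) := by
    have f1 := P.tr_mul (g * h⁻¹) u
    have f2 := P.tr_mul (h⁻¹ * g) u
    have c1 : P.tr (g * u * h⁻¹) = P.tr (h⁻¹ * g * u) := by
      rw [P.tr_comm (g * u), mul_assoc]
    have c2 : P.tr (g * u⁻¹ * h⁻¹) = P.tr (h⁻¹ * g * u⁻¹) := by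
      rw [P.tr_comm (g * u⁻¹), mul_assoc]
    have c3 : P.tr (h⁻¹ * g) = P.tr (g * h⁻¹) := P.tr_comm _ _
    linear_combination f1 - f2 - c1 - P.det u * c2 - P.tr u * c3
  linear_combination (-P.tr u) * e1 - P.det h * e2 + e3 + e4 + P.det h * e5

/-- The linear extension of the trace to the group algebra. -/
def linExt : MonoidAlgebra k G →ₗ[k] k :=
  (MonoidAlgebra.basis G k).constr k P.tr

theorem linExt_single (g : G) (r : k) : P.linExt (single g r) = r * P.tr g := by
  have h : single g r = r • (MonoidAlgebra.basis G k g) := by
    simp [MonoidAlgebra.basis]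
  rw [h, map_smul, linExt, Module.Basis.constr_basis, smul_eq_mul]

theorem linExt_one : P.linExt 1 = 2 := by
  rw [one_def, linExt_single, one_mul, P.tr_one]

theorem linExt_comm (x y : MonoidAlgebra k G) : P.linExt (x * y) = P.linExt (y * x) := by
  induction x using MonoidAlgebra.induction_linear with
  | zero => simp
  | add a b ha hb => rw [add_mul, mul_add, map_add, map_add, ha, hb]
  | single g r =>
    induction y using MonoidAlgebra.induction_linear with
    | zero => simp
    | add a b ha hb => rw [add_mul, mul_add, map_add, map_add, ha, hb]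
    | single h s =>
      rw [single_mul_single, single_mul_single, linExt_single, linExt_single, P.tr_comm g h,
        mul_comm r s]

theorem linExt_cube (x y z : MonoidAlgebra k G) :
    P.linExt x * P.linExt y * P.linExt z - P.linExt x * P.linExt (y * z)
      - P.linExt y * P.linExt (x * z) - P.linExt z * P.linExt (x * y)
      + P.linExt (x * y * z) + P.linExt (x * z * y) = 0 := by
  induction x using MonoidAlgebra.induction_linear with
  | zero => simp
  | add a b ha hb => simp only [add_mul, map_add]; linear_combination ha + hb
  | single g r =>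
    induction y using MonoidAlgebra.induction_linear with
    | zero => simp
    | add a b ha hb => simp only [add_mul, mul_add, map_add]; linear_combination ha + hb
    | single h s =>
      induction z using MonoidAlgebra.induction_linear with
      | zero => simp
      | add a b ha hb => simp only [add_mul, mul_add, map_add]; linear_combination ha + hb
      | single u t =>
        simp only [single_mul_single, linExt_single]
        linear_combination r * s * t * P.tr_cube g h u

theorem linExt_mul_self (g : G) (x : MonoidAlgebra k G) :
    P.linExt (x * of k G g * of k G g) =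
      P.tr g * P.linExt (x * of k G g) - P.det g * P.linExt x := by
  induction x using MonoidAlgebra.induction_linear with
  | zero => simp
  | add a b ha hb => simp only [add_mul, map_add]; linear_combination ha + hb
  | single h r =>
    simp only [of_apply, single_mul_single, linExt_single, mul_one]
    linear_combination r * P.tr_mul_self g h

end PseudoChar

/-- The entry functions of a two dimensional representation with a split element. -/
structure SplitData {G k : Type*} [Group G] [CommRing k] (P : PseudoChar G k) where
  /-- Upper left entry. -/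
  diag₁ : G → k
  /-- Lower right entry. -/
  diag₂ : G → k
  /-- Product of an upper right entry and a lower left entry. -/
  off : G → G → k
  diag_add : ∀ g, diag₁ g + diag₂ g = P.tr g
  diag₁_mul : ∀ g h, diag₁ (g * h) = diag₁ g * diag₁ h + off g h
  diag₂_mul : ∀ g h, diag₂ (g * h) = diag₂ g * diag₂ h + off h g
  off_mul_left : ∀ g h w, off (g * h) w = diag₁ g * off h w + off g w * diag₂ h
  off_mul_right : ∀ g h w, off w (g * h) = off w g * diag₁ h + diag₂ g * off w h
  off_cross : ∀ g h u v, off g h * off u v = off u h * off g v
  det_eq : ∀ g, diag₁ g * diag₂ g - off g g = P.det g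
  diag₁_one : diag₁ 1 = 1

namespace PseudoChar

variable {G k : Type*} [Group G] [CommRing k] (P : PseudoChar G k)

theorem linExt_idem (e : MonoidAlgebra k G) (he : P.linExt e = 1)
    (hee : ∀ x, P.linExt (e * e * x) = P.linExt (e * x)) (x y : MonoidAlgebra k G) :
    P.linExt (e * x * e * y) = P.linExt (e * x) * P.linExt (e * y) := by
  have h2 : ∀ a b, P.linExt (a * e * e * b) = P.linExt (a * e * b) := fun a b => by
    rw [mul_assoc a e e, mul_assoc a (e * e) b, P.linExt_comm a, mul_assoc (e * e), hee,
      ← mul_assoc, P.linExt_comm (e * b) a, ← mul_assoc]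
  have hrot : ∀ a, P.linExt (a * e * e) = P.linExt (a * e) := fun a => by
    simpa using h2 a 1
  have h := P.linExt_cube e (e * x * e) (e * y * e)
  have a1 : ∀ z, P.linExt (e * z * e) = P.linExt (e * z) := fun z => by
    rw [P.linExt_comm (e * z) e, ← mul_assoc, hee]
  have a2 : ∀ z, P.linExt (e * (e * z * e)) = P.linExt (e * z) := fun z => by
    rw [← mul_assoc, ← mul_assoc, mul_assoc (e * e) z e, hee, ← mul_assoc, a1]
  have a3 : P.linExt (e * x * e * (e * y * e)) = P.linExt (e * x * e * y) := by
    rw [← mul_assoc, ← mul_assoc, mul_assoc (e * x * e * e) y e, h2 (e * x) (y * e), ← mul_assoc,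
      show e * x * e * y * e = e * (x * e * y) * e by simp only [mul_assoc], a1]
    simp only [mul_assoc]
  have a4 : P.linExt (e * (e * x * e) * (e * y * e)) = P.linExt (e * x * e * y) := by
    rw [← a3, show e * (e * x * e) * (e * y * e) = e * e * (x * e * (e * y * e)) by
      simp only [mul_assoc], hee]
    simp only [mul_assoc]
  have a5 : P.linExt (e * (e * y * e) * (e * x * e)) = P.linExt (e * x * e * y) := by
    rw [show e * (e * y * e) * (e * x * e) = e * e * (y * e * (e * x * e)) by
      simp only [mul_assoc], hee, show e * (y * e * (e * x * e)) = e * y * e * e * (x * e) by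
      simp only [mul_assoc], h2, show e * y * e * (x * e) = (e * y) * (e * x * e) by
      simp only [mul_assoc], P.linExt_comm (e * y), show e * x * e * (e * y) = e * x * e * e * y by
      simp only [mul_assoc], h2]
  rw [he, a1, a1, a2, a2, a3, a4, a5] at h
  linear_combination h

variable {P}

/-- Split data attached to an element with two distinct eigenvalues. -/
def splitData {r : k} (c : G) (l m : k) (hr : r * (l - m) = 1) (hadd : l + m = P.tr c)
    (hmul : l * m = P.det c) : SplitData P :=
  let e : MonoidAlgebra k G := r • (of k G c - m • 1)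
  let f : MonoidAlgebra k G := 1 - e
  have he : P.linExt e = 1 := by
    simp only [e, map_smul, map_sub, smul_eq_mul, P.linExt_one, of_apply, P.linExt_single, one_mul]
    linear_combination hr - r * hadd
  have hee : ∀ x, P.linExt (e * e * x) = P.linExt (e * x) := fun x => by
    have hc : P.linExt (of k G c * (of k G c * x)) =
        P.tr c * P.linExt (of k G c * x) - P.det c * P.linExt x := by
      rw [P.linExt_comm, P.linExt_comm (of k G c) x, P.linExt_comm (of k G c * x),
        ← mul_assoc, P.linExt_comm (of k G c * of k G c) x, ← mul_assoc]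
      exact P.linExt_mul_self c x
    simp only [e, smul_mul_assoc, mul_smul_comm, sub_mul, mul_sub, one_mul, mul_one, smul_smul,
      mul_assoc, map_smul, map_sub, smul_eq_mul, hc, ← hadd, ← hmul]
    linear_combination r * (P.linExt (of k G c * x) - m * P.linExt x) * hr
  have hf : P.linExt f = 1 := by
    simp only [f, map_sub, P.linExt_one, he]; ring
  have hff : ∀ x, P.linExt (f * f * x) = P.linExt (f * x) := fun x => by
    simp only [f, sub_mul, mul_sub, one_mul, mul_one, map_sub, hee]; ring
  have hsum : ∀ x y, P.linExt (x * y) = P.linExt (x * e * y) + P.linExt (x * f * y) := fun x y => by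
    rw [← map_add, ← add_mul, ← mul_add, show e + f = 1 from add_sub_cancel _ _, mul_one]
  have kE := P.linExt_idem e he hee
  have kF := P.linExt_idem f hf hff
  { diag₁ := fun g => P.linExt (e * of k G g)
    diag₂ := fun g => P.linExt (f * of k G g)
    off := fun g h => P.linExt (e * of k G g * f * of k G h)
    diag_add := fun g => by
      rw [← map_add, ← add_mul, show e + f = 1 from add_sub_cancel _ _, one_mul, of_apply,
        P.linExt_single, one_mul]
    diag₁_mul := fun g h => by
      rw [map_mul (of k G), ← mul_assoc, hsum, kE]
    diag₂_mul := fun g h => by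
      rw [map_mul (of k G), ← mul_assoc, hsum, kF, add_comm]
      congr 1
      rw [show f * of k G g * e * of k G h = (f * of k G g) * (e * of k G h) by
        simp only [mul_assoc], P.linExt_comm, ← mul_assoc]
    off_mul_left := fun g h w => by
      rw [map_mul (of k G), ← mul_assoc, show e * of k G g * of k G h * f * of k G w =
        (e * of k G g) * (of k G h * f * of k G w) by simp only [mul_assoc], hsum]
      congr 1
      · rw [kE]; simp only [mul_assoc]
      · rw [show e * of k G g * f * (of k G h * f * of k G w) =
          (e * of k G g) * (f * of k G h * f * of k G w) by simp only [mul_assoc], P.linExt_comm,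
          show f * of k G h * f * of k G w * (e * of k G g) =
          f * of k G h * f * (of k G w * e * of k G g) by simp only [mul_assoc], kF,
          show f * (of k G w * e * of k G g) = (f * of k G w) * (e * of k G g) by
          simp only [mul_assoc], P.linExt_comm (f * of k G w), ← mul_assoc, mul_comm]
    off_mul_right := fun g h w => by
      rw [map_mul (of k G), ← mul_assoc, hsum]
      congr 1
      · rw [show e * of k G w * f * of k G g * e * of k G h =
          e * (of k G w * f * of k G g) * e * of k G h by simp only [mul_assoc], kE]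
        simp only [mul_assoc]
      · rw [show e * of k G w * f * of k G g * f * of k G h =
          (e * of k G w) * (f * of k G g * f * of k G h) by simp only [mul_assoc], P.linExt_comm,
          show f * of k G g * f * of k G h * (e * of k G w) =
          f * of k G g * f * (of k G h * e * of k G w) by simp only [mul_assoc], kF,
          show f * (of k G h * e * of k G w) = (f * of k G h) * (e * of k G w) by
          simp only [mul_assoc], P.linExt_comm (f * of k G h), ← mul_assoc]
    off_cross := fun g h u v => by
      have h1 := kE (of k G g * f * of k G h) (of k G u * f * of k G v)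
      have h2 := kF (of k G h * e * of k G u) (of k G v * e * of k G g)
      have c1 : P.linExt (e * (of k G g * f * of k G h) * e * (of k G u * f * of k G v)) =
          P.linExt (f * (of k G h * e * of k G u) * f * (of k G v * e * of k G g)) := by
        rw [show e * (of k G g * f * of k G h) * e * (of k G u * f * of k G v) =
          (e * of k G g) * (f * of k G h * e * of k G u * f * of k G v) by simp only [mul_assoc],
          P.linExt_comm]
        simp only [mul_assoc]
      have c2 : P.linExt (f * (of k G h * e * of k G u)) =
          P.linExt (e * of k G u * f * of k G h) := by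
        rw [show f * (of k G h * e * of k G u) = (f * of k G h) * (e * of k G u) by
          simp only [mul_assoc], P.linExt_comm, ← mul_assoc]
      have c3 : P.linExt (f * (of k G v * e * of k G g)) =
          P.linExt (e * of k G g * f * of k G v) := by
        rw [show f * (of k G v * e * of k G g) = (f * of k G v) * (e * of k G g) by
          simp only [mul_assoc], P.linExt_comm, ← mul_assoc]
      rw [c1, h2, c2, c3] at h1
      simp only [← mul_assoc] at h1
      exact h1.symm
    det_eq := fun g => by
      have h1 := kE (of k G g) (of k G g)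
      have h2 := hsum (e * of k G g) (of k G g)
      have h3 := P.linExt_mul_self g e
      have h4 : P.linExt (e * of k G g) + P.linExt (f * of k G g) = P.tr g := by
        rw [← map_add, ← add_mul, show e + f = 1 from add_sub_cancel _ _, one_mul, of_apply,
          P.linExt_single, one_mul]
      rw [he] at h3
      linear_combination P.linExt (e * of k G g) * h4 - h3 + h2 + h1
    diag₁_one := by rw [map_one (of k G), mul_one, he] }

end PseudoChar

namespace SplitData

variable {G k : Type*} [Group G] [CommRing k] {P : PseudoChar G k} (s : SplitData P)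

theorem off_one_left (w : G) : s.off 1 w = 0 := by
  have h := s.diag₁_mul 1 w
  rw [one_mul, s.diag₁_one, one_mul] at h
  linear_combination -h

theorem off_one_right (w : G) : s.off w 1 = 0 := by
  have h := s.diag₁_mul w 1
  rw [mul_one, s.diag₁_one, mul_one] at h
  linear_combination -h

theorem diag₂_one : s.diag₂ 1 = 1 := by
  have h := s.det_eq 1
  rw [s.diag₁_one, s.off_one_left, map_one] at h
  linear_combination h

/-- The representation normalised by a pair of elements and a factor. -/
def matrixRep (g₀ h₀ : G) (r : k)
    (hr : ∀ g h, s.off g h₀ * r * s.off g₀ h = s.off g h) : G →* Matrix (Fin 2) (Fin 2) k where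
  toFun g := !![s.diag₁ g, s.off g h₀ * r; s.off g₀ g, s.diag₂ g]
  map_one' := by
    simp [s.diag₁_one, s.diag₂_one, off_one_left, off_one_right, Matrix.one_fin_two]
  map_mul' g h := by
    rw [Matrix.mul_fin_two]
    congr 1 with i j
    fin_cases i <;> fin_cases j <;> simp
    · rw [s.diag₁_mul, hr]
    · rw [s.off_mul_left]; ring
    · rw [s.off_mul_right]
    · rw [s.diag₂_mul]
      linear_combination -hr h g

theorem trace_matrixRep (g₀ h₀ : G) (r : k)
    (hr : ∀ g h, s.off g h₀ * r * s.off g₀ h = s.off g h) (g : G) :
    (s.matrixRep g₀ h₀ r hr g).trace = P.tr g := by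
  rw [Matrix.trace_fin_two, ← s.diag_add g]; rfl

theorem det_matrixRep (g₀ h₀ : G) (r : k)
    (hr : ∀ g h, s.off g h₀ * r * s.off g₀ h = s.off g h) (g : G) :
    (s.matrixRep g₀ h₀ r hr g).det = P.det g := by
  rw [Matrix.det_fin_two, ← s.det_eq g]
  show s.diag₁ g * s.diag₂ g - s.off g h₀ * r * s.off g₀ g = _
  rw [hr]

end SplitData

/-- A split element of a pseudo-character over a field gives a representation. Its matrix
coefficients are combinations of translates of the trace. -/
theorem exists_rep_of_split {G k : Type*} [Group G] [Field k] (P : PseudoChar G k) (c : G) {l m : k}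
    (hlm : l ≠ m) (hadd : l + m = P.tr c) (hmul : l * m = P.det c) :
    ∃ ρ : G →* Matrix (Fin 2) (Fin 2) k, (∀ g, (ρ g).trace = P.tr g) ∧
      (∀ g, (ρ g).det = P.det g) ∧
      ∀ i j, (fun g => ρ g i j) ∈ Submodule.span k (Set.range fun w : G => fun g => P.tr (w * g)) := by
  have hr : (l - m)⁻¹ * (l - m) = 1 := inv_mul_cancel₀ (sub_ne_zero.2 hlm)
  set s := PseudoChar.splitData c l m hr hadd hmul
  set W := Submodule.span k (Set.range fun w : G => fun g => P.tr (w * g))
  have hW : ∀ x : MonoidAlgebra k G, (fun g => P.linExt (x * MonoidAlgebra.of k G g)) ∈ W := by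
    intro x
    induction x using MonoidAlgebra.induction_linear with
    | zero => simp only [zero_mul, map_zero]; exact W.zero_mem
    | add a b ha hb => simp only [add_mul, map_add]; exact W.add_mem ha hb
    | single w r =>
      simp only [MonoidAlgebra.of_apply, MonoidAlgebra.single_mul_single, P.linExt_single, mul_one]
      exact W.smul_mem r (Submodule.subset_span ⟨w, rfl⟩)
  have h1 : (fun g => s.diag₁ g) ∈ W := hW _
  have h2 : (fun g => s.diag₂ g) ∈ W := hW _
  have h3 : ∀ h, (fun g => s.off g h) ∈ W := fun h => by
    refine (congrArg (· ∈ W) (funext fun g => ?_)).mpr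
      (hW ((1 - (l - m)⁻¹ • (MonoidAlgebra.of k G c - m • 1)) * MonoidAlgebra.of k G h *
        ((l - m)⁻¹ • (MonoidAlgebra.of k G c - m • 1))))
    show P.linExt ((_ * MonoidAlgebra.of k G g) * _ * MonoidAlgebra.of k G h) = _
    rw [mul_assoc (_ * MonoidAlgebra.of k G g), P.linExt_comm]
    simp only [mul_assoc]
  have h4 : ∀ h, (fun g => s.off h g) ∈ W := fun h => hW _
  have hfin : ∀ (g₀ h₀ : G) (r : k) (hr : ∀ g h, s.off g h₀ * r * s.off g₀ h = s.off g h),
      ∃ ρ : G →* Matrix (Fin 2) (Fin 2) k, (∀ g, (ρ g).trace = P.tr g) ∧
        (∀ g, (ρ g).det = P.det g) ∧ ∀ i j, (fun g => ρ g i j) ∈ W := by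
    intro g₀ h₀ r hr
    refine ⟨s.matrixRep g₀ h₀ r hr, s.trace_matrixRep g₀ h₀ r hr, s.det_matrixRep g₀ h₀ r hr,
      fun i j => ?_⟩
    fin_cases i <;> fin_cases j
    · exact h1
    · refine (congrArg (· ∈ W) (funext fun g => ?_)).mpr (W.smul_mem r (h3 h₀))
      exact mul_comm _ _
    · exact h4 g₀
    · exact h2
  by_cases h0 : ∃ g₀ h₀, s.off g₀ h₀ ≠ 0
  · obtain ⟨g₀, h₀, h0⟩ := h0
    refine hfin g₀ h₀ (s.off g₀ h₀)⁻¹ fun g h => ?_
    field_simp
    linear_combination s.off_cross g h₀ g₀ h
  · push Not at h0
    refine hfin 1 1 0 fun g h => ?_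
    rw [h0 g h, mul_zero, zero_mul]

end FLTAgent.EigenReps
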