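import Fermat.Agent.EigenReps.Level
import Fermat.Agent.DetCyclo.Basic
import Fermat.Agent.EigenReps.Split

/-!
# The pseudo-characters carried by the Hecke algebra

On `p^n`-torsion of `J₀(N)` every `σ + χ(σ) σ⁻¹` is a Hecke operator, unique modulo a bounded
power of `p`. A ring homomorphism of the Hecke algebra to a ring killed by a power of `p` therefore
gives a two dimensional pseudo-character.
-/

set_option autoImplicit false

noncomputable section

set_option synthInstance.maxHeartbeats 400000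
set_option maxHeartbeats 1000000
set_option linter.style.haveILetI false

open AlgebraicCurve ModularCurve FLTAgent.DetCyclo

namespace FLTAgent.EigenReps

local notation "LL" => AlgebraicClosure ℚ
local notation "GG" => (AlgebraicClosure ℚ ≃ₐ[ℚ] AlgebraicClosure ℚ)

/-- Transport of operators along an additive equivalence. -/
def conjEnd {A B : Type*} [AddCommGroup A] [AddCommGroup B] (e : A ≃+ B) :
    AddMonoid.End B →+* AddMonoid.End A where
  toFun f := (e.symm.toAddMonoidHom.comp f).comp e.toAddMonoidHom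
  map_one' := AddMonoidHom.ext fun x => e.symm_apply_apply x
  map_mul' f g := AddMonoidHom.ext fun x => by
    show e.symm (f (g (e x))) = e.symm (f (e (e.symm (g (e x)))))
    rw [e.apply_symm_apply]
  map_zero' := AddMonoidHom.ext fun x => map_zero e.symm
  map_add' f g := AddMonoidHom.ext fun x => map_add e.symm _ _

theorem conjEnd_apply {A B : Type*} [AddCommGroup A] [AddCommGroup B] (e : A ≃+ B)
    (f : AddMonoid.End B) (x : A) : e (conjEnd e f x) = f (e x) :=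
  e.apply_symm_apply _

variable (N : ℕ) [NeZero N] (S : Finset ℕ)

/-- The inclusion in the full Hecke algebra. -/
def toFull : CuspForm.heckeAlgebra N 2 (↑S : Set ℕ) →+* CuspForm.heckeAlgebra N 2 (∅ : Set ℕ) :=
  (Subalgebra.inclusion (CuspForm.heckeAlgebra_mono (Set.empty_subset _))).toRingHom

theorem toFull_injective : Function.Injective (toFull N S) :=
  Subalgebra.inclusion_injective _

theorem toFull_T {ℓ : ℕ} (hℓ : ℓ.Prime) (hℓN : ¬ ℓ ∣ N) (hℓS : ℓ ∉ (↑S : Set ℕ)) :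
    toFull N S (CuspForm.heckeAlgebra.T hℓ hℓN hℓS) = CuspForms.heckeGen N ℓ hℓ := by
  unfold CuspForms.heckeGen
  rw [dif_neg hℓN]
  exact Subtype.ext rfl

/-- The action of the Hecke algebra on the `m`-torsion of `J₀(N)`. -/
def act (m : ℕ) [NeZero m] : CuspForm.heckeAlgebra N 2 (↑S : Set ℕ) →+*
    AddMonoid.End (Pic0.torsion LL (modularFunctionFieldBar N) m) :=
  (conjEnd (TorsionHom.torsEquiv (N := N) Kronecker.complexEmb m)).comp
    ((PeriodHecke.actA N (ZMod m)).comp (toFull N S))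

theorem coe_act_T (m : ℕ) [NeZero m] {ℓ : ℕ} (hℓ : ℓ.Prime) (hℓN : ¬ ℓ ∣ N)
    (hℓS : ℓ ∉ (↑S : Set ℕ)) (x : Pic0.torsion LL (modularFunctionFieldBar N) m) :
    (act N S m (CuspForm.heckeAlgebra.T hℓ hℓN hℓS) x : JZero N) =
      heckeOperatorBar N ⟨ℓ, hℓ⟩ (x : JZero N) := by
  rw [← TorsionHom.coe_heckeTors (N := N) m ⟨ℓ, hℓ⟩ x]
  refine congrArg Subtype.val ((TorsionHom.torsEquiv (N := N) Kronecker.complexEmb m).injective ?_)
  refine Eq.trans ?_ (TorsionHom.torsEquiv_heckeTors Kronecker.complexEmb m ⟨ℓ, hℓ⟩ x).symm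
  rw [act, RingHom.comp_apply, conjEnd_apply, RingHom.comp_apply, toFull_T]

theorem coe_act_add (m : ℕ) [NeZero m] (t u : CuspForm.heckeAlgebra N 2 (↑S : Set ℕ))
    (x : Pic0.torsion LL (modularFunctionFieldBar N) m) :
    (act N S m (t + u) x : JZero N) = (act N S m t x : JZero N) + (act N S m u x : JZero N) :=
  congrArg Subtype.val (DFunLike.congr_fun (map_add (act N S m) t u) x)

theorem act_mul_eq (m : ℕ) [NeZero m] (t u : CuspForm.heckeAlgebra N 2 (↑S : Set ℕ))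
    (x : Pic0.torsion LL (modularFunctionFieldBar N) m) :
    act N S m (t * u) x = act N S m t (act N S m u x) :=
  DFunLike.congr_fun (map_mul (act N S m) t u) x

theorem coe_act_one (m : ℕ) [NeZero m] (x : Pic0.torsion LL (modularFunctionFieldBar N) m) :
    (act N S m 1 x : JZero N) = x :=
  congrArg Subtype.val (DFunLike.congr_fun (map_one (act N S m)) x)

theorem coe_act_intCast (m : ℕ) [NeZero m] (r : ℤ)
    (x : Pic0.torsion LL (modularFunctionFieldBar N) m) :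
    (act N S m (r : CuspForm.heckeAlgebra N 2 (↑S : Set ℕ)) x : JZero N) = r • (x : JZero N) := by
  have h : act N S m (r : CuspForm.heckeAlgebra N 2 (↑S : Set ℕ)) x = r • x :=
    DFunLike.congr_fun (map_intCast (act N S m) r) x
  rw [h]
  rfl

theorem coe_act_nsmul (m : ℕ) [NeZero m] (k : ℕ) (t : CuspForm.heckeAlgebra N 2 (↑S : Set ℕ))
    (x : Pic0.torsion LL (modularFunctionFieldBar N) m) :
    (act N S m (k • t) x : JZero N) = k • (act N S m t x : JZero N) :=
  congrArg Subtype.val (DFunLike.congr_fun (map_nsmul (act N S m) k t) x)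

theorem coe_act_sub (m : ℕ) [NeZero m] (t u : CuspForm.heckeAlgebra N 2 (↑S : Set ℕ))
    (x : Pic0.torsion LL (modularFunctionFieldBar N) m) :
    (act N S m (t - u) x : JZero N) = (act N S m t x : JZero N) - (act N S m u x : JZero N) :=
  congrArg Subtype.val (DFunLike.congr_fun (map_sub (act N S m) t u) x)

/-- Saturation: a submodule contains a fixed power of `p` times its `p`-power saturation. -/
theorem exists_saturation {E : Type*} [AddCommGroup E] [IsNoetherian ℤ E] (M : Submodule ℤ E)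
    (p : ℕ) : ∃ c : ℕ, ∀ (n : ℕ) (f : E), (p : ℤ) ^ n • f ∈ M → (p : ℤ) ^ c • f ∈ M := by
  let F : ℕ →o Submodule ℤ E :=
    { toFun := fun n => M.comap (((p : ℤ) ^ n) • LinearMap.id)
      monotone' := fun a b hab f hf => by
        show (p : ℤ) ^ b • f ∈ M
        rw [← Nat.sub_add_cancel hab, pow_add, mul_smul]
        exact M.smul_mem _ hf }
  obtain ⟨c, hc⟩ := monotone_stabilizes_iff_noetherian.2 ‹_› F
  refine ⟨c, fun n f hf => ?_⟩
  have h : f ∈ F (max n c) := F.monotone (le_max_left _ _) (by exact hf)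
  rw [← hc _ (le_max_right _ _)] at h
  exact h

/-- Operators killing `p^n`-torsion are divisible by a fixed shift of `p^n`. -/
theorem exists_shift (p : ℕ) [Fact p.Prime] :
    ∃ c₀ : ℕ, ∀ (n : ℕ) (t : CuspForm.heckeAlgebra N 2 (↑S : Set ℕ)), c₀ ≤ n →
      (∀ x, act N S (p ^ n) t x = 0) → ∃ s, t = ((p : ℕ) ^ (n - c₀) : ℕ) • s := by
  classical
  set D := Module.Dual ℤ (PeriodHecke.Hpar (CongruenceSubgroup.Gamma0 N) ℤ)
  let ψ : CuspForm.heckeAlgebra N 2 (↑S : Set ℕ) →+* Module.End ℤ D :=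
    (PeriodHecke.actDual N).comp (toFull N S)
  have hψ : Function.Injective ψ := by
    refine fun s t h => toFull_injective N S (PeriodHecke.actInt_injective N ?_)
    refine LinearMap.ext fun φ => ?_
    refine (Module.evalEquiv ℤ (PeriodHecke.Hpar (CongruenceSubgroup.Gamma0 N) ℤ)).injective
      (LinearMap.ext fun w => ?_)
    have h1 := LinearMap.congr_fun (LinearMap.congr_fun h w) φ
    exact (PeriodHecke.actDual_apply N _ w φ).symm.trans
      (h1.trans (PeriodHecke.actDual_apply N _ w φ))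
  obtain ⟨c₀, hc₀⟩ := exists_saturation (LinearMap.range ψ.toAddMonoidHom.toIntLinearMap) p
  refine ⟨c₀, fun n t hn ht => ?_⟩
  let b := Module.Free.chooseBasis ℤ D
  have hdvd : ∀ i j, ((p ^ n : ℕ) : ℤ) ∣ b.repr (ψ t (b j)) i := fun i j => by
    let l : D →ₗ[ℤ] ZMod (p ^ n) := (Int.castAddHom (ZMod (p ^ n))).toIntLinearMap ∘ₗ b.coord i
    obtain ⟨x, hx⟩ := (TorsionHom.torsEquiv (N := N) Kronecker.complexEmb (p ^ n)).surjective
      (PeriodHecke.homEquiv N _ l)
    have h1 := congrArg (TorsionHom.torsEquiv (N := N) Kronecker.complexEmb (p ^ n)) (ht x)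
    rw [map_zero, act, RingHom.comp_apply, conjEnd_apply, hx, RingHom.comp_apply,
      PeriodHecke.actA_homEquiv, map_eq_zero_iff _ (PeriodHecke.homEquiv N _).injective] at h1
    exact (ZMod.intCast_zmod_eq_zero_iff_dvd _ _).1 (LinearMap.congr_fun h1 (b j))
  choose q hq using hdvd
  let f : Module.End ℤ D := b.constr ℤ fun j => ∑ i, q i j • b i
  have hf : ψ t = (p : ℤ) ^ n • f := by
    refine b.ext fun j => ?_
    rw [LinearMap.smul_apply, Module.Basis.constr_basis, Finset.smul_sum]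
    conv_lhs => rw [← b.sum_repr (ψ t (b j))]
    refine Finset.sum_congr rfl fun i _ => ?_
    rw [hq, smul_smul]
    norm_num
  obtain ⟨s, hs⟩ := hc₀ n f ⟨t, hf⟩
  refine ⟨s, hψ ?_⟩
  rw [map_nsmul, show ψ s = (p : ℤ) ^ c₀ • f from hs, hf, ← natCast_zsmul, smul_smul]
  push_cast
  rw [← pow_add, Nat.sub_add_cancel hn]

variable (p : ℕ) [Fact p.Prime]

/-- A chosen shift. -/
def shift : ℕ := (exists_shift N S p).choose

theorem shift_spec (n : ℕ) (t : CuspForm.heckeAlgebra N 2 (↑S : Set ℕ)) (hn : shift N S p ≤ n)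
    (ht : ∀ x, act N S (p ^ n) t x = 0) : ∃ s, t = ((p : ℕ) ^ (n - shift N S p) : ℕ) • s :=
  (exists_shift N S p).choose_spec n t hn ht

/-- `t` acts on `p^n`-torsion as `σ + c σ⁻¹`. -/
def IsLift (n : ℕ) (σ : GG) (c : ℕ) (t : CuspForm.heckeAlgebra N 2 (↑S : Set ℕ)) : Prop :=
  CycloExponent p n σ c ∧ ∀ x : Pic0.torsion LL (modularFunctionFieldBar N) (p ^ n),
    (act N S (p ^ n) t x : JZero N) = σ • (x : JZero N) + c • (σ⁻¹ • (x : JZero N))

omit [NeZero N] in
theorem nsmul_eq_of_modEq {m a b : ℕ} (h : a ≡ b [MOD m]) {y : JZero N} (hy : m • y = 0) :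
    a • y = b • y := by
  have key : ∀ c : ℕ, c • y = (c % m) • y := fun c => by
    conv_lhs => rw [← Nat.mod_add_div c m]
    rw [add_nsmul, mul_comm m, mul_nsmul, ← mul_nsmul, mul_comm, mul_nsmul, hy, nsmul_zero,
      add_zero]
  rw [key a, key b]
  exact congrArg (· • y) h

variable (hpS : p ∈ S) (hNS : ∀ q : ℕ, q.Prime → q ∣ N → q ∈ S)

include hpS in
theorem coe_act_T_frobenius (n : ℕ) {ℓ : ℕ} (hℓ : ℓ.Prime) (hℓN : ¬ ℓ ∣ N)
    (hℓS : ℓ ∉ (↑S : Set ℕ)) {A : ValuationSubring LL} (hA : A.LiesOverPrime ℓ) {τ : GG}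
    (hτ : A.IsFrobeniusAt τ ℓ) (x : Pic0.torsion LL (modularFunctionFieldBar N) (p ^ n)) :
    (act N S (p ^ n) (CuspForm.heckeAlgebra.T hℓ hℓN hℓS) x : JZero N) =
      τ • (x : JZero N) + ℓ • (τ⁻¹ • (x : JZero N)) := by
  rw [coe_act_T]
  exact heckeOperatorBar_frobenius N ⟨ℓ, hℓ⟩ hℓN
    (fun h => hℓS (((Nat.prime_dvd_prime_iff_eq hℓ (Fact.out : p.Prime)).1 (hℓ.dvd_of_dvd_pow h)) ▸ hpS))
    hA hτ ((mem_torsion_iff_nsmul N).1 x.2)

include hpS hNS in
/-- The Hecke algebra commutes with Galois on torsion. -/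
theorem act_comm (n : ℕ) (t : CuspForm.heckeAlgebra N 2 (↑S : Set ℕ)) (γ : GG)
    (x y : Pic0.torsion LL (modularFunctionFieldBar N) (p ^ n))
    (h : (y : JZero N) = γ • (x : JZero N)) :
    (act N S (p ^ n) t y : JZero N) = γ • (act N S (p ^ n) t x : JZero N) := by
  obtain ⟨t, ht⟩ := t
  induction ht using Algebra.adjoin_induction generalizing x y with
  | mem u hu =>
    rcases hu with ⟨ℓ, hℓ, hℓN, hℓS, rfl⟩ | ⟨q, hqN, hq, hqS, rfl⟩
    · obtain ⟨A, hA⟩ := Frobenius.exists_liesOverPrime ℓ hℓ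
      obtain ⟨τ, hτ⟩ := Frobenius.exists_isFrobeniusAt (V := A) ℓ hℓ hA
      show (act N S (p ^ n) (CuspForm.heckeAlgebra.T hℓ hℓN hℓS) y : JZero N) =
        γ • (act N S (p ^ n) (CuspForm.heckeAlgebra.T hℓ hℓN hℓS) x : JZero N)
      rw [coe_act_T_frobenius N S p hpS n hℓ hℓN hℓS (Frobenius.liesOverPrime_smul A hA)
          (Frobenius.isFrobeniusAt_conj A hτ (γ := γ)),
        coe_act_T_frobenius N S p hpS n hℓ hℓN hℓS hA hτ, h, smul_add,
        ← nsmul_galois_smul N ℓ γ, mul_smul, mul_smul, inv_smul_smul, mul_inv_rev, mul_inv_rev,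
        inv_inv, mul_smul, mul_smul, inv_smul_smul]
    · exact absurd (hNS q hq hqN) hqS
  | algebraMap r =>
    show (act N S (p ^ n) (algebraMap ℤ _ r) y : JZero N) =
      γ • (act N S (p ^ n) (algebraMap ℤ _ r) x : JZero N)
    rw [eq_intCast, coe_act_intCast, coe_act_intCast, h]
    exact (map_zsmul (DistribSMul.toAddMonoidHom (JZero N) γ) r _).symm
  | add a b ha hb iha ihb =>
    show (act N S (p ^ n) (⟨a, ha⟩ + ⟨b, hb⟩) y : JZero N) =
      γ • (act N S (p ^ n) (⟨a, ha⟩ + ⟨b, hb⟩) x : JZero N)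
    rw [coe_act_add, coe_act_add]
    refine (congrArg₂ (· + ·) (iha x y h) (ihb x y h)).trans ?_
    exact (map_add (DistribSMul.toAddMonoidHom (JZero N) γ) _ _).symm
  | mul a b ha hb iha ihb =>
    show (act N S (p ^ n) (⟨a, ha⟩ * ⟨b, hb⟩) y : JZero N) =
      γ • (act N S (p ^ n) (⟨a, ha⟩ * ⟨b, hb⟩) x : JZero N)
    rw [act_mul_eq, act_mul_eq]
    exact iha _ _ (ihb x y h)

include hpS in
theorem isLift_frobenius (n : ℕ) {ℓ : ℕ} (hℓ : ℓ.Prime) (hℓN : ¬ ℓ ∣ N)
    (hℓS : ℓ ∉ (↑S : Set ℕ)) {A : ValuationSubring LL} (hA : A.LiesOverPrime ℓ) {τ : GG}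
    (hτ : A.IsFrobeniusAt τ ℓ) :
    IsLift N S p n τ ℓ (CuspForm.heckeAlgebra.T hℓ hℓN hℓS) :=
  ⟨cycloExponent_frobenius hℓ (fun h => hℓS (h ▸ hpS)) hA hτ n,
    coe_act_T_frobenius N S p hpS n hℓ hℓN hℓS hA hτ⟩

theorem isLift_one (n : ℕ) : IsLift N S p n 1 1 2 := by
  refine ⟨fun ζ _ => by simp, fun x => ?_⟩
  rw [show (2 : CuspForm.heckeAlgebra N 2 (↑S : Set ℕ)) = 1 + 1 by norm_num, coe_act_add,
    coe_act_one, inv_one, one_smul, one_nsmul]

/-- Composition of two operators of the form `σ + c σ⁻¹`. -/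
theorem act_mul_apply {n : ℕ} {σ : GG} {c : ℕ} {t u : CuspForm.heckeAlgebra N 2 (↑S : Set ℕ)}
    (ht : IsLift N S p n σ c t) (x : Pic0.torsion LL (modularFunctionFieldBar N) (p ^ n)) :
    (act N S (p ^ n) (t * u) x : JZero N) = σ • (act N S (p ^ n) u x : JZero N) +
      c • (σ⁻¹ • (act N S (p ^ n) u x : JZero N)) := by
  rw [act_mul_eq]
  exact ht.2 _

/-- The sequence of operators attached to the powers of a Frobenius element. -/
def powOp (T : CuspForm.heckeAlgebra N 2 (↑S : Set ℕ)) (ℓ : ℕ) :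
    ℕ → CuspForm.heckeAlgebra N 2 (↑S : Set ℕ)
  | 0 => 2
  | 1 => T
  | k + 2 => T * powOp T ℓ (k + 1) - ℓ • powOp T ℓ k

theorem isLift_pow {n : ℕ} {τ : GG} {ℓ : ℕ} {T : CuspForm.heckeAlgebra N 2 (↑S : Set ℕ)}
    (h : IsLift N S p n τ ℓ T) (k : ℕ) :
    IsLift N S p n (τ ^ k) (ℓ ^ k) (powOp N S T ℓ k) := by
  induction k using Nat.twoStepInduction with
  | zero => simpa [powOp] using isLift_one N S p n
  | one => simpa [powOp] using h
  | more k h0 h1 =>
    refine ⟨h.1.pow _, fun x => ?_⟩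
    rw [powOp, coe_act_sub, coe_act_nsmul, act_mul_apply N S p h, h1.2 x, h0.2 x]
    simp only [smul_add, ← nsmul_galois_smul, ← mul_smul, nsmul_add, ← pow_succ']
    rw [show τ⁻¹ * τ ^ (k + 1) = τ ^ k by rw [pow_succ', inv_mul_cancel_left],
      show τ * (τ ^ (k + 1))⁻¹ = (τ ^ k)⁻¹ by rw [pow_succ, mul_inv_rev, mul_inv_cancel_left],
      show τ⁻¹ * (τ ^ (k + 1))⁻¹ = (τ ^ (k + 2))⁻¹ by rw [← mul_inv_rev, ← pow_succ]]
    abel

include hpS hNS in
/-- Lifts exist, simultaneously at all levels up to `n`. -/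
theorem exists_lift (n : ℕ) (σ : GG) : ∃ (c : ℕ) (t : CuspForm.heckeAlgebra N 2 (↑S : Set ℕ)),
    ∀ n' ≤ n, IsLift N S p n' σ c t := by
  haveI : NeZero (p ^ n) := ⟨pow_ne_zero _ (Fact.out : p.Prime).ne_zero⟩
  obtain ⟨L, hL, hfix⟩ := exists_torsion_level N (p ^ n)
  obtain ⟨ζ, hζ⟩ := exists_primitive_root_pow p n
  haveI : FiniteDimensional ℚ (IntermediateField.adjoin ℚ ({ζ} : Set LL)) :=
    IntermediateField.adjoin.finiteDimensional
      ((AlgebraicClosure.isAlgebraic ℚ).isAlgebraic ζ).isIntegral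
  obtain ⟨ℓ, V, τ, k, hℓ, hℓS, hV, hτ, hk⟩ :=
    Frobenius.exists_frobenius_pow_eqOn (L ⊔ IntermediateField.adjoin ℚ ({ζ} : Set LL)) σ S
  have hℓN : ¬ ℓ ∣ N := fun h => hℓS (hNS ℓ hℓ h)
  have hℓS' : ℓ ∉ (↑S : Set ℕ) := hℓS
  refine ⟨ℓ ^ k, powOp N S (CuspForm.heckeAlgebra.T hℓ hℓN hℓS') ℓ k, fun n' hn' => ?_⟩
  obtain ⟨hcy, hact⟩ := isLift_pow N S p (isLift_frobenius N S p hpS n' hℓ hℓN hℓS' hV hτ) k
  have heq : ∀ y : JZero N, p ^ n' • y = 0 → σ • y = τ ^ k • y := fun y hy => by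
    have hy' : p ^ n • y = 0 := by
      rw [← Nat.add_sub_cancel' hn', pow_add, mul_nsmul, hy, nsmul_zero]
    have h1 := hfix ((τ ^ k)⁻¹ * σ) (fun a ha => by
      show (τ ^ k)⁻¹ (σ a) = a
      rw [hk a ((le_sup_left : L ≤ L ⊔ _) ha)]
      exact (τ ^ k).symm_apply_apply a) y hy'
    rwa [mul_smul, inv_smul_eq_iff] at h1
  have hcyc : CycloExponent p n' σ (ℓ ^ k) := fun η hη => by
    have hη' : η ^ p ^ n = 1 := by
      rw [← Nat.add_sub_cancel' hn', pow_add, pow_mul, hη, one_pow]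
    obtain ⟨i, -, rfl⟩ := hζ.eq_pow_of_pow_eq_one hη'
    rw [← hcy _ hη, map_pow, map_pow, hk ζ ((le_sup_right : _ ≤ L ⊔ _)
      (IntermediateField.subset_adjoin ℚ _ rfl))]
  refine ⟨hcyc, fun x => ?_⟩
  have hx := (mem_torsion_iff_nsmul N).1 x.2
  have hinv : σ⁻¹ • (x : JZero N) = (τ ^ k)⁻¹ • (x : JZero N) := by
    have h1 := heq (σ⁻¹ • (x : JZero N)) (by rw [nsmul_galois_smul, hx, galois_smul_zero])
    rw [smul_inv_smul] at h1
    rw [eq_inv_smul_iff, ← h1]
  rw [hact x, heq _ hx, hinv]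

end FLTAgent.EigenReps
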