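import Fermat.Agent.Kronecker.GoodReduction
import Fermat.Agent.TorsionHom.HeckeEquiv
import Fermat.Agent.Frobenius.Global

/-!
# Galois action on the torsion of `J₀(N)`

The action on `m`-torsion factors through a number field, is trivial on inertia away from `N m`
and satisfies the Eichler–Shimura relation `T_ℓ = F + ℓ F⁻¹`.
-/

set_option autoImplicit false

noncomputable section

set_option synthInstance.maxHeartbeats 400000
set_option maxHeartbeats 1000000
set_option linter.style.haveILetI false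

open AlgebraicCurve ModularCurve

namespace FLTAgent.EigenReps

local notation "LL" => AlgebraicClosure ℚ
local notation "GG" => (AlgebraicClosure ℚ ≃ₐ[ℚ] AlgebraicClosure ℚ)

section Fixing

variable (F₀ : IntermediateField ℚ (LaurentSeries ℚ))

theorem exists_fixing_series {x : LaurentSeries LL} (hx : x ∈ laurentBaseChange LL F₀) :
    ∃ L : IntermediateField ℚ LL, FiniteDimensional ℚ L ∧
      ∀ σ : GG, (∀ a ∈ L, σ a = a) → coeffMap (σ : LL →+* LL) x = x := by
  rw [mem_laurentBaseChange_iff] at hx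
  induction hx using Subfield.closure_induction with
  | mem y hy =>
    rcases hy with ⟨a, rfl⟩ | ⟨z, -, rfl⟩
    · refine ⟨IntermediateField.adjoin ℚ {a}, IntermediateField.adjoin.finiteDimensional
        ((AlgebraicClosure.isAlgebraic ℚ).isAlgebraic a).isIntegral, fun σ hσ => ?_⟩
      rw [coeffMap_algebraMap]
      exact congrArg _ (hσ a (IntermediateField.subset_adjoin ℚ _ rfl))
    · exact ⟨⊥, inferInstance, fun σ _ => coeffMap_coeffEmb σ z⟩
  | one => exact ⟨⊥, inferInstance, fun σ _ => map_one _⟩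
  | add a b _ _ ha hb =>
    obtain ⟨L, hL, h1⟩ := ha
    obtain ⟨L', hL', h2⟩ := hb
    exact ⟨L ⊔ L', inferInstance, fun σ hσ => by
      rw [map_add, h1 σ fun t ht => hσ t (le_sup_left (b := L') ht),
        h2 σ fun t ht => hσ t (le_sup_right (a := L) ht)]⟩
  | neg a _ ha =>
    obtain ⟨L, hL, h1⟩ := ha
    exact ⟨L, hL, fun σ hσ => by rw [map_neg, h1 σ hσ]⟩
  | inv a _ ha =>
    obtain ⟨L, hL, h1⟩ := ha
    exact ⟨L, hL, fun σ hσ => by rw [map_inv₀, h1 σ hσ]⟩
  | mul a b _ _ ha hb =>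
    obtain ⟨L, hL, h1⟩ := ha
    obtain ⟨L', hL', h2⟩ := hb
    exact ⟨L ⊔ L', inferInstance, fun σ hσ => by
      rw [map_mul, h1 σ fun t ht => hσ t (le_sup_left (b := L') ht),
        h2 σ fun t ht => hσ t (le_sup_right (a := L) ht)]⟩

end Fixing

variable (N : ℕ) [NeZero N]

theorem exists_fixing_place (P : Place LL (modularFunctionFieldBar N)) :
    ∃ L : IntermediateField ℚ LL, FiniteDimensional ℚ L ∧
      ∀ σ : GG, (∀ a ∈ L, σ a = a) → arithmeticGalois (modularFunctionFieldFull N) σ • P = P := by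
  obtain ⟨s, hneg, hpos⟩ := Kronecker.exists_single_pole P
  obtain ⟨L, hL, hfix⟩ := exists_fixing_series _ s.2
  refine ⟨L, hL, fun σ hσ => ?_⟩
  by_contra hne
  set g := arithmeticGalois (modularFunctionFieldFull N) σ
  have hs : g • s = s := Subtype.ext (hfix σ hσ)
  have h := SemilinearAut.ord_smul g P s
  rw [hs] at h
  exact absurd (hpos _ hne) (by rw [h]; exact not_le.2 hneg)

theorem exists_fixing_divisor (D : Divisor LL (modularFunctionFieldBar N)) :
    ∃ L : IntermediateField ℚ LL, FiniteDimensional ℚ L ∧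
      ∀ σ : GG, (∀ a ∈ L, σ a = a) → arithmeticGalois (modularFunctionFieldFull N) σ • D = D := by
  induction D using Finsupp.induction with
  | zero => exact ⟨⊥, inferInstance, fun σ _ => smul_zero _⟩
  | single_add P n D _ _ ih =>
    obtain ⟨L, hL, h1⟩ := ih
    obtain ⟨L', hL', h2⟩ := exists_fixing_place N P
    exact ⟨L ⊔ L', inferInstance, fun σ hσ => by
      rw [smul_add, SemilinearAut.smul_single, h1 σ fun t ht => hσ t (le_sup_left (b := L') ht),
        h2 σ fun t ht => hσ t (le_sup_right (a := L) ht)]⟩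

theorem exists_fixing_class (x : JZero N) :
    ∃ L : IntermediateField ℚ LL, FiniteDimensional ℚ L ∧
      ∀ σ : GG, (∀ a ∈ L, σ a = a) → σ • x = x := by
  obtain ⟨D, rfl⟩ := Pic0.mk_surjective x
  obtain ⟨L, hL, h⟩ := exists_fixing_divisor N D
  refine ⟨L, hL, fun σ hσ => ?_⟩
  rw [galois_smul_pic0_def, SemilinearAut.pic0_smul_mk]
  exact congrArg Pic0.mk (Subtype.ext (h σ hσ))

theorem exists_fixing_set (s : Finset (JZero N)) :
    ∃ L : IntermediateField ℚ LL, FiniteDimensional ℚ L ∧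
      ∀ σ : GG, (∀ a ∈ L, σ a = a) → ∀ x ∈ s, σ • x = x := by
  classical
  induction s using Finset.induction_on with
  | empty => exact ⟨⊥, inferInstance, by simp⟩
  | insert x s _ ih =>
    obtain ⟨L, hL, h1⟩ := ih
    obtain ⟨L', hL', h2⟩ := exists_fixing_class N x
    refine ⟨L ⊔ L', inferInstance, fun σ hσ y hy => ?_⟩
    rcases Finset.mem_insert.1 hy with rfl | hy
    · exact h2 σ fun t ht => hσ t (le_sup_right (a := L) ht)
    · exact h1 σ (fun t ht => hσ t (le_sup_left (b := L') ht)) y hy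

omit [NeZero N] in
theorem nsmul_galois_smul (m : ℕ) (σ : GG) (x : JZero N) : m • (σ • x) = σ • (m • x) :=
  (map_nsmul (DistribSMul.toAddMonoidHom (JZero N) σ) m x).symm

omit [NeZero N] in
theorem galois_smul_zero (σ : GG) : σ • (0 : JZero N) = 0 :=
  map_zero (DistribSMul.toAddMonoidHom (JZero N) σ)

omit [NeZero N] in
theorem nsmul_smul_eq_zero {m : ℕ} (c : ℕ) {σ : GG} {x : JZero N} (hx : m • x = 0) :
    m • (c • (σ • x)) = 0 := by
  rw [← mul_nsmul, mul_comm, mul_nsmul, nsmul_galois_smul, hx, galois_smul_zero, nsmul_zero]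

theorem finite_torsion (m : ℕ) [NeZero m] :
    Finite (Pic0.torsion LL (modularFunctionFieldBar N) m) := by
  refine Nat.finite_of_card_ne_zero ?_
  rw [TorsionHom.card_torsion (N := N) Kronecker.complexEmb m]
  exact pow_ne_zero _ (NeZero.ne m)

omit [NeZero N] in
theorem mem_torsion_iff_nsmul {m : ℕ} {x : JZero N} :
    x ∈ Pic0.torsion LL (modularFunctionFieldBar N) m ↔ m • x = 0 := by
  rw [Pic0.mem_torsion, natCast_zsmul]

/-- The action on `m`-torsion factors through a number field. -/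
theorem exists_torsion_level (m : ℕ) [NeZero m] :
    ∃ L : IntermediateField ℚ LL, FiniteDimensional ℚ L ∧
      ∀ σ : GG, (∀ a ∈ L, σ a = a) → ∀ x : JZero N, m • x = 0 → σ • x = x := by
  classical
  have := finite_torsion N m
  have := Fintype.ofFinite (Pic0.torsion LL (modularFunctionFieldBar N) m)
  obtain ⟨L, hL, h⟩ := exists_fixing_set N
    (Finset.univ.image fun x : Pic0.torsion LL (modularFunctionFieldBar N) m => (x : JZero N))
  exact ⟨L, hL, fun σ hσ x hx => h σ hσ x
    (Finset.mem_image.2 ⟨⟨x, (mem_torsion_iff_nsmul N).2 hx⟩, Finset.mem_univ _, rfl⟩)⟩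

/-- Inertia away from `N m` acts trivially on `m`-torsion. -/
theorem inertia_smul_torsion {ℓ : ℕ} (hℓ : ℓ.Prime) (hℓN : ¬ ℓ ∣ N) {m : ℕ} (hm : ¬ ℓ ∣ m)
    {A : ValuationSubring LL} (hA : A.LiesOverPrime ℓ) {σ : GG}
    (hσ : σ ∈ A.inertiaSubgroupIn ℚ) {x : JZero N} (hx : m • x = 0) : σ • x = x := by
  obtain ⟨-, hinj⟩ := Kronecker.goodReductionAt N ℓ hℓ hℓN A hA
  refine sub_eq_zero.1 (hinj m hm _ ?_ ?_)
  · rw [nsmul_sub, nsmul_galois_smul, hx, galois_smul_zero, sub_zero]
  · rw [map_sub, Kronecker.reductionModL_smul_of_mem_inertia σ hσ, sub_self]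

/-- The Eichler–Shimura relation on torsion prime to `ℓ`. -/
theorem heckeOperatorBar_frobenius (ℓ : Nat.Primes) (hℓN : ¬ (ℓ : ℕ) ∣ N) {m : ℕ}
    (hm : ¬ (ℓ : ℕ) ∣ m) {A : ValuationSubring LL} (hA : A.LiesOverPrime ℓ) {σ : GG}
    (hσ : A.IsFrobeniusAt σ ℓ) {x : JZero N} (hx : m • x = 0) :
    heckeOperatorBar N ℓ x = σ • x + (ℓ : ℕ) • (σ⁻¹ • x) := by
  haveI : Fact (ℓ : ℕ).Prime := ⟨ℓ.2⟩
  haveI := FLTAgent.FrobTrace.charP_residueField hA
  obtain ⟨hin, hinj⟩ := Kronecker.goodReductionAt N ℓ ℓ.2 hℓN A hA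
  let φ := Kronecker.residueAut A ⟨σ, hσ.mem_decompositionSubgroup⟩
  have hφ : ∀ z, φ z = z ^ (ℓ : ℕ) := fun z => hσ.smul_residue_eq z
  refine sub_eq_zero.1 (hinj m hm _ ?_ ?_)
  · rw [nsmul_sub, nsmul_add, ← map_nsmul, hx, map_zero, nsmul_galois_smul, hx, galois_smul_zero,
      nsmul_smul_eq_zero N _ hx, add_zero, sub_zero]
  · have h1 : reductionModL A N (heckeOperatorBar N ℓ x) =
        Kronecker.specialAut N φ • reductionModL A N x +
          (ℓ : ℕ) • ((Kronecker.specialAut N φ)⁻¹ • reductionModL A N x) :=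
      Kronecker.reductionModL_hecke hℓN hin φ hφ x
    have h2 := Kronecker.reductionModL_smul_of_frobenius hin hσ φ hφ x
    have h3 := Kronecker.reductionModL_smul_of_frobenius hin hσ φ hφ (σ⁻¹ • x)
    rw [smul_inv_smul] at h3
    rw [map_sub, map_add, map_nsmul, h1, h2, h3, inv_smul_smul, sub_self]

end FLTAgent.EigenReps
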