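import Fermat.Agent.EigenReps.Split

/-!
# Integral models of pseudo-characters over a discrete valuation ring

A pseudo-character over a discrete valuation ring with an involution of determinant `-1` is the
trace of a representation by integral matrices, which is congruent to `1` wherever the trace is
invariant to high enough precision.
-/

set_option autoImplicit false

noncomputable section

set_option linter.style.haveILetI false

open IsLocalRing

namespace FLTAgent.EigenReps

section Bounded

variable {G O K : Type*} [CommRing O] [IsDomain O] [Field K] [Algebra O K] [IsFractionRing O K]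

/-- Bounded combinations of translates. -/
theorem exists_denominator [Group G] (t : G → O) {f : G → K}
    (hf : f ∈ Submodule.span K (Set.range fun w : G => fun g => algebraMap O K (t (w * g)))) :
    ∃ D : O, D ≠ 0 ∧ (∀ g, ∃ x : O, algebraMap O K D * f g = algebraMap O K x) ∧
      ∀ (I : Ideal O) (τ : G), (∀ g, t (g * τ) - t g ∈ I) →
        ∃ x ∈ I, algebraMap O K D * (f τ - f 1) = algebraMap O K x := by
  induction hf using Submodule.span_induction with
  | mem f hf =>
    obtain ⟨w, rfl⟩ := hf
    refine ⟨1, one_ne_zero, fun g => ⟨t (w * g), by simp only [map_one, one_mul]⟩,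
      fun I τ hτ => ⟨_, hτ w, by simp only [map_one, one_mul, mul_one, map_sub]⟩⟩
  | zero =>
    exact ⟨1, one_ne_zero, fun g => ⟨0, by simp⟩, fun I τ _ => ⟨0, I.zero_mem, by simp⟩⟩
  | add f f' _ _ hf hf' =>
    obtain ⟨D, hD, hi, hI⟩ := hf
    obtain ⟨D', hD', hi', hI'⟩ := hf'
    refine ⟨D * D', mul_ne_zero hD hD', fun g => ?_, fun I τ hτ => ?_⟩
    · obtain ⟨x, hx⟩ := hi g
      obtain ⟨y, hy⟩ := hi' g
      refine ⟨D' * x + D * y, ?_⟩
      rw [map_add, map_mul, map_mul, map_mul, ← hx, ← hy, Pi.add_apply]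
      ring
    · obtain ⟨x, hxI, hx⟩ := hI I τ hτ
      obtain ⟨y, hyI, hy⟩ := hI' I τ hτ
      refine ⟨D' * x + D * y, I.add_mem (I.mul_mem_left _ hxI) (I.mul_mem_left _ hyI), ?_⟩
      rw [map_add, map_mul, map_mul, map_mul, ← hx, ← hy, Pi.add_apply, Pi.add_apply]
      ring
  | smul c f _ hf =>
    obtain ⟨D, hD, hi, hI⟩ := hf
    obtain ⟨a, b, hb, rfl⟩ := IsFractionRing.div_surjective (A := O) c
    have hb0 : algebraMap O K b ≠ 0 := IsFractionRing.to_map_ne_zero_of_mem_nonZeroDivisors hb
    refine ⟨b * D, mul_ne_zero (nonZeroDivisors.ne_zero hb) hD, fun g => ?_, fun I τ hτ => ?_⟩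
    · obtain ⟨x, hx⟩ := hi g
      refine ⟨a * x, ?_⟩
      rw [map_mul, map_mul, ← hx, Pi.smul_apply, smul_eq_mul]
      field_simp
    · obtain ⟨x, hxI, hx⟩ := hI I τ hτ
      refine ⟨a * x, I.mul_mem_left _ hxI, ?_⟩
      rw [map_mul, map_mul, ← hx, Pi.smul_apply, Pi.smul_apply, smul_eq_mul, smul_eq_mul]
      field_simp

end Bounded

variable {G O : Type*} [Group G] [CommRing O] [IsDomain O] [IsDiscreteValuationRing O]

/-- Cancelling a fixed nonzero factor costs a bounded power of the maximal ideal. -/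
theorem exists_cancel {D : O} (hD : D ≠ 0) :
    ∃ s : ℕ, ∀ (n : ℕ) (x : O), D * x ∈ maximalIdeal O ^ (n + s) → x ∈ maximalIdeal O ^ n := by
  obtain ⟨ϖ, hϖ⟩ := IsDiscreteValuationRing.exists_irreducible O
  obtain ⟨s, u, rfl⟩ := IsDiscreteValuationRing.eq_unit_mul_pow_irreducible hD hϖ
  refine ⟨s, fun n x hx => ?_⟩
  rw [hϖ.maximalIdeal_eq, Ideal.span_singleton_pow, Ideal.mem_span_singleton] at hx ⊢
  rw [mul_assoc, Units.dvd_mul_left, pow_add, mul_comm (ϖ ^ n)] at hx
  exact (mul_dvd_mul_iff_left (pow_ne_zero s hϖ.ne_zero)).mp hx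

/-- An integral representation with the given trace and determinant. -/
theorem exists_integral_rep [CharZero O] (P : PseudoChar G O) (c : G) (hc : c * c = 1)
    (hdc : P.det c = -1) :
    ∃ r : G →* Matrix (Fin 2) (Fin 2) O, (∀ g, (r g).trace = P.tr g) ∧
      (∀ g, (r g).det = P.det g) ∧
      ∃ s : ℕ, ∀ (n : ℕ) (τ : G), (∀ g, P.tr (g * τ) - P.tr g ∈ maximalIdeal O ^ (n + s)) →
        ∀ i j, (r τ - 1) i j ∈ maximalIdeal O ^ n := by
  let K := FractionRing O
  let ι := algebraMap O K
  have hι : Function.Injective ι := IsFractionRing.injective O K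
  haveI : CharZero K := charZero_of_injective_algebraMap hι
  have htc : P.tr c = 0 := by
    have h := P.tr_mul c c
    rw [hc, mul_inv_cancel, P.tr_one, hdc] at h
    have h2 : P.tr c * P.tr c = 0 := by linear_combination -h
    exact mul_self_eq_zero.mp h2
  obtain ⟨ρ, htr, hdet, hspan⟩ := exists_rep_of_split (P.map ι) c (l := (1 : K)) (m := -1)
    (by norm_num)
    (by show _ = ι (P.tr c); rw [htc, map_zero, add_neg_cancel])
    (by show _ = ι (P.det c); rw [hdc, map_neg, map_one, one_mul])
  have hbd := fun i j => exists_denominator (K := K) P.tr (hspan i j)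
  choose D hD0 hDint hDI using hbd
  set D0 := D 0 0 * D 0 1 * D 1 0 * D 1 1
  have hD00 : D0 ≠ 0 := mul_ne_zero (mul_ne_zero (mul_ne_zero (hD0 0 0) (hD0 0 1)) (hD0 1 0))
    (hD0 1 1)
  have hdvd : ∀ i j, D i j ∣ D0 := by
    intro i j
    fin_cases i <;> fin_cases j
    · exact ((dvd_mul_right _ _).mul_right _).mul_right _
    · exact ((dvd_mul_left _ _).mul_right _).mul_right _
    · exact (dvd_mul_left _ _).mul_right _
    · exact dvd_mul_left _ _
  -- the lattice spanned by the translates of the standard vectors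
  let L : Submodule O (Fin 2 → K) :=
    Submodule.span O (Set.range fun x : G × Fin 2 => (ρ x.1).mulVec (Pi.single x.2 1))
  let M : Submodule O (Fin 2 → K) :=
    Submodule.span O (Set.range fun i : Fin 2 => (ι D0)⁻¹ • (Pi.single i 1 : Fin 2 → K))
  have hLM : L ≤ M := by
    refine Submodule.span_le.mpr ?_
    rintro _ ⟨⟨g, j⟩, rfl⟩
    have hx : ∀ i, ∃ y : O, ι D0 * ρ g i j = ι y := fun i => by
      obtain ⟨x, hx⟩ := hDint i j g
      obtain ⟨e, he⟩ := hdvd i j
      exact ⟨e * x, by rw [he, map_mul, map_mul, ← hx]; ring⟩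
    choose y hy using hx
    have : (ρ g).mulVec (Pi.single j 1) =
        ∑ i, y i • ((ι D0)⁻¹ • (Pi.single i 1 : Fin 2 → K)) := by
      ext i
      have h0 : ι D0 ≠ 0 := fun h => hD00 (hι (h.trans (map_zero ι).symm))
      rw [Matrix.mulVec_single_one, Finset.sum_apply, Finset.sum_eq_single i
        (fun k _ hk => by simp [Pi.single_eq_of_ne' hk]) (by simp), Pi.smul_apply, Pi.smul_apply,
        Pi.single_eq_same, smul_eq_mul, mul_one, Algebra.smul_def, Matrix.col_apply]
      show ρ g i j = ι (y i) * (ι D0)⁻¹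
      rw [← hy, mul_comm (ι D0), mul_inv_cancel_right₀ h0]
    show (ρ g).mulVec (Pi.single j 1) ∈ M
    rw [this]
    exact Submodule.sum_mem _ fun i _ => Submodule.smul_mem _ _ (Submodule.subset_span ⟨i, rfl⟩)
  haveI : Module.Finite O M := Module.Finite.span_of_finite O (Set.finite_range _)
  haveI : Module.Finite O L := Module.Finite.of_injective (Submodule.inclusion hLM)
    (Submodule.inclusion_injective hLM)
  haveI : Module.Free O L := inferInstance
  let b₀ := Module.Free.chooseBasis O L
  let w : Module.Free.ChooseBasisIndex O L → Fin 2 → K := fun i => (b₀ i : Fin 2 → K)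
  have hli : LinearIndependent K w := by
    rw [← LinearIndependent.iff_fractionRing (R := O) (K := K)]
    exact b₀.linearIndependent.map' L.subtype L.ker_subtype
  have hsp : ⊤ ≤ Submodule.span K (Set.range w) := by
    have hL : L ≤ (Submodule.span K (Set.range w)).restrictScalars O := by
      have : Submodule.map L.subtype (Submodule.span O (Set.range b₀)) = L := by
        rw [b₀.span_eq, Submodule.map_top, Submodule.range_subtype]
      refine this.ge.trans ?_
      rw [Submodule.map_span, ← Set.range_comp]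
      exact Submodule.span_le_restrictScalars O K _
    rw [← (Pi.basisFun K (Fin 2)).span_eq, Submodule.span_le]
    rintro _ ⟨i, rfl⟩
    have hmem : (ρ 1).mulVec (Pi.single i 1) ∈ L := Submodule.subset_span ⟨(1, i), rfl⟩
    rw [map_one, Matrix.one_mulVec] at hmem
    rw [Pi.basisFun_apply]
    exact hL hmem
  let bK := Module.Basis.mk hli hsp
  let eι := (bK.indexEquiv (Pi.basisFun K (Fin 2)))
  let b := b₀.reindex eι
  let Pm : Matrix (Fin 2) (Fin 2) K := Matrix.of fun i j => (b j : Fin 2 → K) i
  have hstable : ∀ g v, v ∈ L → (ρ g).mulVec v ∈ L := by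
    intro g v hv
    induction hv using Submodule.span_induction with
    | mem v hv =>
      obtain ⟨⟨h, j⟩, rfl⟩ := hv
      rw [Matrix.mulVec_mulVec, ← map_mul]
      exact Submodule.subset_span ⟨(g * h, j), rfl⟩
    | zero => rw [Matrix.mulVec_zero]; exact L.zero_mem
    | add _ _ _ _ hu hv => rw [Matrix.mulVec_add]; exact L.add_mem hu hv
    | smul a u _ hu => rw [Matrix.mulVec_smul]; exact L.smul_mem a hu
  have hcoord : ∀ v : L, Pm.mulVec (fun i => ι (b.repr v i)) = (v : Fin 2 → K) := by
    intro v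
    ext i
    have hv := congrArg (fun u : L => (u : Fin 2 → K) i) (b.sum_repr v)
    simp only [Fin.sum_univ_two, Submodule.coe_add, Submodule.coe_smul, Pi.add_apply,
      Pi.smul_apply] at hv
    rw [Algebra.smul_def, Algebra.smul_def] at hv
    rw [Matrix.mulVec, dotProduct, Fin.sum_univ_two]
    show (b 0 : Fin 2 → K) i * ι _ + (b 1 : Fin 2 → K) i * ι _ = _
    rw [← hv]
    ring
  have hPQ : ∃ Q, Pm * Q = 1 := by
    have h : ∀ j, (Pi.single j 1 : Fin 2 → K) ∈ L := fun j => by
      have := Submodule.subset_span (R := O)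
        (s := Set.range fun x : G × Fin 2 => (ρ x.1).mulVec (Pi.single x.2 1)) ⟨(1, j), rfl⟩
      simp only [map_one, Matrix.one_mulVec] at this
      exact this
    refine ⟨Matrix.of fun i j => ι (b.repr ⟨_, h j⟩ i), ?_⟩
    ext i j
    exact (congrFun (hcoord ⟨_, h j⟩) i).trans (by simp [Pi.single_apply, Matrix.one_apply])
  obtain ⟨Q, hQ⟩ := hPQ
  have hQP : Q * Pm = 1 := mul_eq_one_comm.mp hQ
  have hint : ∀ g, ∃ R : Matrix (Fin 2) (Fin 2) O, R.map ι = Q * ρ g * Pm := by
    intro g
    refine ⟨Matrix.of fun i j => b.repr ⟨_, hstable g _ (b j).2⟩ i, ?_⟩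
    rw [mul_assoc, ← one_mul (Matrix.map _ _), ← hQP, mul_assoc Q Pm]
    congr 1
    ext i j
    exact (congrFun (hcoord ⟨_, hstable g _ (b j).2⟩) i).trans (by rfl)
  choose r hr using hint
  have hinj : Function.Injective fun R : Matrix (Fin 2) (Fin 2) O => R.map ι :=
    Matrix.map_injective hι
  have hone : ι.mapMatrix (r 1) = ι.mapMatrix 1 := by
    rw [map_one, RingHom.mapMatrix_apply, hr, map_one, mul_one, hQP]
  have hmul : ∀ g h, ι.mapMatrix (r (g * h)) = ι.mapMatrix (r g * r h) := fun g h => by
    rw [map_mul, RingHom.mapMatrix_apply, RingHom.mapMatrix_apply, RingHom.mapMatrix_apply, hr, hr,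
      hr, map_mul, show Q * ρ g * Pm * (Q * ρ h * Pm) = Q * ρ g * (Pm * Q) * (ρ h * Pm) by
        simp only [mul_assoc], hQ, mul_one]
    simp only [mul_assoc]
  let rhom : G →* Matrix (Fin 2) (Fin 2) O :=
    { toFun := r
      map_one' := hinj hone
      map_mul' := fun g h => hinj (hmul g h) }
  refine ⟨rhom, fun g => hι ?_, fun g => hι ?_, ?_⟩
  · calc ι (rhom g).trace = ((r g).map ι).trace := AddMonoidHom.map_trace ι.toAddMonoidHom _
      _ = ι (P.tr g) := by
        rw [hr, Matrix.trace_mul_comm, ← mul_assoc, hQ, one_mul, htr]; rfl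
  · calc ι (rhom g).det = ((r g).map ι).det := ι.map_det _
      _ = ι (P.det g) := by
        rw [hr, Matrix.det_mul, Matrix.det_mul, mul_comm, ← mul_assoc, ← Matrix.det_mul, hQ,
          Matrix.det_one, one_mul, hdet]; rfl
  · have hentry : ∀ i j, (fun g => ι (r g i j)) ∈
        Submodule.span K (Set.range fun w : G => fun g => algebraMap O K (P.tr (w * g))) := by
      intro i j
      have : (fun g => ι (r g i j)) =
          ∑ a, ∑ a', (Q i a * Pm a' j) • fun g => ρ g a a' := by
        funext g
        rw [show ι (r g i j) = ((r g).map ι) i j from rfl, hr]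
        simp [Matrix.mul_apply, Fin.sum_univ_two]
        ring
      rw [this]
      exact Submodule.sum_mem _ fun a _ => Submodule.sum_mem _ fun a' _ =>
        Submodule.smul_mem _ _ (hspan a a')
    have hbd := fun i j => exists_denominator (K := K) P.tr (hentry i j)
    choose E hE0 _ hEI using hbd
    choose s hs using fun i j => exists_cancel (hE0 i j)
    refine ⟨s 0 0 + s 0 1 + s 1 0 + s 1 1, fun n τ hτ i j => hs i j n _ ?_⟩
    obtain ⟨x, hxI, hx⟩ := hEI i j (maximalIdeal O ^ (n + s i j)) τ fun g => by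
      refine Ideal.pow_le_pow_right ?_ (hτ g)
      fin_cases i <;> fin_cases j <;> simp <;> omega
    rw [← map_sub, ← map_mul] at hx
    have := hι hx
    rw [show r 1 = 1 from rhom.map_one] at this
    rw [Matrix.sub_apply, show rhom τ = r τ from rfl, this]
    exact hxI

end FLTAgent.EigenReps
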