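import Fermat.Agent.EigenReps.Approx
import Fermat.Agent.EigenReps.Lattice
import Fermat.Agent.Deformation.Bridge

/-!
# Adic representations attached to points of the Hecke algebra

The pseudo-characters modulo the powers of the maximal ideal form a compatible system; their limit
has an integral model.
-/

set_option autoImplicit false

noncomputable section

set_option synthInstance.maxHeartbeats 400000
set_option maxHeartbeats 1000000
set_option linter.style.haveILetI false
set_option linter.overlappingInstances false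

open Polynomial IsLocalRing

namespace FLTAgent.EigenReps

local notation "LL" => AlgebraicClosure ℚ
local notation "GG" => (AlgebraicClosure ℚ ≃ₐ[ℚ] AlgebraicClosure ℚ)

section Limit

variable {A : Type*} [CommRing A] {I : Ideal A}

theorem eq_of_forall_mk_pow [IsHausdorff I A] {x y : A}
    (h : ∀ m, Ideal.Quotient.mk (I ^ m) x = Ideal.Quotient.mk (I ^ m) y) : x = y := by
  rw [← sub_eq_zero]
  refine IsHausdorff.haus ‹_› _ fun m => ?_
  rw [SModEq.zero, smul_eq_mul, Ideal.mul_top, ← Ideal.Quotient.eq_zero_iff_mem, map_sub, h m,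
    sub_self]

theorem exists_limit [IsPrecomplete I A] (u : ∀ m, A ⧸ I ^ m)
    (hu : ∀ m n (h : m ≤ n), Ideal.Quotient.factor (Ideal.pow_le_pow_right h) (u n) = u m) :
    ∃ x : A, ∀ m, Ideal.Quotient.mk (I ^ m) x = u m := by
  choose f hf using fun m => Ideal.Quotient.mk_surjective (u m)
  obtain ⟨x, hx⟩ := IsPrecomplete.prec (I := I) (M := A) ‹_› (f := f) fun {m n} h => by
    rw [SModEq.sub_mem, smul_eq_mul, Ideal.mul_top, ← Ideal.Quotient.eq_zero_iff_mem, map_sub,
      hf m, ← hu m n h, ← hf n, Ideal.Quotient.factor_mk, sub_self]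
  refine ⟨x, fun m => ?_⟩
  have h := SModEq.sub_mem.mp (hx m)
  rw [smul_eq_mul, Ideal.mul_top, ← Ideal.Quotient.eq_zero_iff_mem, map_sub, sub_eq_zero] at h
  rw [← h, hf]

end Limit

variable (N : ℕ) [NeZero N] (S : Finset ℕ) (p : ℕ) [Fact p.Prime]
  (hpS : p ∈ S) (hNS : ∀ q : ℕ, q.Prime → q ∣ N → q ∈ S)
  {O : Type} [CommRing O] [IsLocalRing O]
  [IsAdicComplete (maximalIdeal O) O]
  (χ : CuspForm.heckeAlgebra N 2 (↑S : Set ℕ) →+* O)

omit [Fact p.Prime] [IsAdicComplete (maximalIdeal O) O] in
theorem natCast_pow_quotient' (hpO : (p : O) ∈ maximalIdeal O) (m : ℕ) :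
    (p : O ⧸ maximalIdeal O ^ m) ^ m = 0 := by
  rw [← map_natCast (Ideal.Quotient.mk (maximalIdeal O ^ m)) p, ← map_pow,
    Ideal.Quotient.eq_zero_iff_mem]
  exact Ideal.pow_mem_pow hpO m

variable (hpO : (p : O) ∈ maximalIdeal O)

/-- The approximation modulo `m^m`. -/
def approxChar (m : ℕ) : PseudoChar GG (O ⧸ maximalIdeal O ^ m) :=
  pseudoChar N S p hpS hNS ((Ideal.Quotient.mk (maximalIdeal O ^ m)).comp χ)
    (natCast_pow_quotient' p hpO m)

omit [IsAdicComplete (maximalIdeal O) O] in
theorem factor_approxChar {m n : ℕ} (h : m ≤ n) (σ : GG) :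
    Ideal.Quotient.factor (Ideal.pow_le_pow_right h) ((approxChar N S p hpS hNS χ hpO n).tr σ) =
        (approxChar N S p hpS hNS χ hpO m).tr σ ∧
      Ideal.Quotient.factor (Ideal.pow_le_pow_right h) ((approxChar N S p hpS hNS χ hpO n).det σ) =
        (approxChar N S p hpS hNS χ hpO m).det σ := by
  have hf : (Ideal.Quotient.factor (Ideal.pow_le_pow_right h)).comp
      ((Ideal.Quotient.mk (maximalIdeal O ^ n)).comp χ) =
      (Ideal.Quotient.mk (maximalIdeal O ^ m)).comp χ :=
    RingHom.ext fun t => rfl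
  have key := map_pseudoChar N S p hpS hNS ((Ideal.Quotient.mk (maximalIdeal O ^ n)).comp χ)
    (natCast_pow_quotient' p hpO n) (Ideal.Quotient.factor (Ideal.pow_le_pow_right h))
    (natCast_pow_quotient' p hpO m) σ
  rw [approxChar, approxChar]
  simp only [hf] at key
  exact key

include hpO in
theorem exists_adicChar :
    ∃ P : PseudoChar GG O, ∀ (m : ℕ) (σ : GG),
      Ideal.Quotient.mk (maximalIdeal O ^ m) (P.tr σ) =
          (approxChar N S p hpS hNS χ hpO m).tr σ ∧
        Ideal.Quotient.mk (maximalIdeal O ^ m) (P.det σ) =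
          (approxChar N S p hpS hNS χ hpO m).det σ := by
  choose t ht using fun σ : GG => exists_limit (fun m => (approxChar N S p hpS hNS χ hpO m).tr σ)
    fun m n h => (factor_approxChar N S p hpS hNS χ hpO h σ).1
  choose d hd using fun σ : GG => exists_limit (fun m => (approxChar N S p hpS hNS χ hpO m).det σ)
    fun m n h => (factor_approxChar N S p hpS hNS χ hpO h σ).2
  refine ⟨{
    tr := t
    det :=
      { toFun := d
        map_one' := eq_of_forall_mk_pow (I := maximalIdeal O) fun m => by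
          rw [hd 1 m, map_one, map_one]
        map_mul' := fun g h => eq_of_forall_mk_pow (I := maximalIdeal O) fun m => by
          rw [hd (g * h) m, map_mul, map_mul, hd g m, hd h m] }
    tr_one := eq_of_forall_mk_pow (I := maximalIdeal O) fun m => by
      rw [ht 1 m, PseudoChar.tr_one, map_ofNat]
    tr_mul := fun g h => eq_of_forall_mk_pow (I := maximalIdeal O) fun m => by
      show Ideal.Quotient.mk _ (t (g * h) + d h * t (g * h⁻¹)) =
        Ideal.Quotient.mk _ (t g * t h)
      rw [map_add, map_mul, map_mul, ht (g * h) m, hd h m, ht (g * h⁻¹) m, ht g m, ht h m,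
        PseudoChar.tr_mul] }, fun m σ => ⟨ht σ m, hd σ m⟩⟩

include hpS hNS hpO in
/-- The representation of a point of the Hecke algebra over a discrete valuation ring. -/
theorem exists_galoisRepAdic [IsDomain O] [IsDiscreteValuationRing O] [CharZero O] :
    ∃ ρ : GaloisRepAdic O,
      (∀ (ℓ : ℕ) (hℓ : ℓ.Prime) (hℓN : ¬ ℓ ∣ N) (hℓS : ℓ ∉ (↑S : Set ℕ)),
        ∀ A : ValuationSubring LL, A.LiesOverPrime ℓ →
          ∀ σ : GG, A.IsFrobeniusAt σ ℓ →
            LinearMap.charpoly (ρ.ρ σ) =
              X ^ 2 - C (χ (CuspForm.heckeAlgebra.T hℓ hℓN hℓS)) * X + C ((ℓ : O))) ∧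
      ∀ q : ℕ, q.Prime → ¬ q ∣ N → q ≠ p → ρ.IsUnramifiedAt q := by
  obtain ⟨P, hP⟩ := exists_adicChar N S p hpS hNS χ hpO
  have hdc : P.det complexConjugation = -1 := eq_of_forall_mk_pow (I := maximalIdeal O) fun m => by
    rw [(hP m _).2, map_neg, map_one]
    exact pseudoChar_det_complexConjugation N S p hpS hNS _ _
  obtain ⟨r, htr, hdet, s, hs⟩ :=
    exists_integral_rep P complexConjugation complexConjugation_mul_self hdc
  have hcts : Deformation.MatCts r := by
    intro n
    obtain ⟨L, hL, hfix⟩ := exists_pseudoChar_level N S p hpS hNS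
      ((Ideal.Quotient.mk (maximalIdeal O ^ (n + s))).comp χ)
      (natCast_pow_quotient' p hpO (n + s))
    refine ⟨L, hL, fun τ hτ => hs n τ fun g => ?_⟩
    rw [← Ideal.Quotient.eq_zero_iff_mem, map_sub, (hP (n + s) (g * τ)).1, (hP (n + s) g).1,
      sub_eq_zero]
    exact (hfix τ hτ).2 g
  refine ⟨Deformation.repOfMatrix r hcts, fun ℓ hℓ hℓN hℓS A hA σ hσ => ?_,
    fun q hq hqN hqp A hA τ hτ => ?_⟩
  · show LinearMap.charpoly (Matrix.toLin' (r σ)) = _
    rw [Matrix.charpoly_toLin', Matrix.charpoly_fin_two, htr, hdet]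
    have h1 : P.tr σ = χ (CuspForm.heckeAlgebra.T hℓ hℓN hℓS) :=
      eq_of_forall_mk_pow (I := maximalIdeal O) fun m => (hP m σ).1.trans
        (pseudoChar_frobenius N S p hpS hNS _ _ hℓ hℓN hℓS hA hσ).1
    have h2 : P.det σ = (ℓ : O) :=
      eq_of_forall_mk_pow (I := maximalIdeal O) fun m => (hP m σ).2.trans
        ((pseudoChar_frobenius N S p hpS hNS _ _ hℓ hℓN hℓS hA hσ).2.trans (map_natCast _ _).symm)
    rw [h1, h2]
  · have h1 : ∀ g, P.tr (g * τ) = P.tr g := fun g =>
      eq_of_forall_mk_pow (I := maximalIdeal O) fun m => by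
        rw [(hP m (g * τ)).1, (hP m g).1]
        exact (pseudoChar_inertia N S p hpS hNS _ _ hq hqN hqp hA hτ).2 g
    have h0 : r τ = 1 := by
      ext i j
      refine eq_of_forall_mk_pow (I := maximalIdeal O) fun n => ?_
      rw [← sub_eq_zero, ← map_sub, Ideal.Quotient.eq_zero_iff_mem]
      exact hs n τ (fun g => by rw [h1, sub_self]; exact Ideal.zero_mem _) i j
    show Matrix.toLinAlgEquiv' (r τ) = 1
    rw [h0, map_one]

end FLTAgent.EigenReps
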