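import Fermat.Agent.EigenReps.Split

/-!
# Pseudo-characters over finite fields come from representations

Over a finite field every two dimensional pseudo-character is the trace of a representation.
-/

set_option autoImplicit false

noncomputable section

open Polynomial

namespace FLTAgent.EigenReps

variable {G k : Type*} [Group G] [Field k]

/-- Either all `off` values vanish or some diagonal value does not. -/
theorem SplitData.exists_off_self_ne {P : PseudoChar G k} (s : SplitData P)
    (h : ∃ g h, s.off g h ≠ 0) : ∃ g, s.off g g ≠ 0 := by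
  by_contra hcon
  push Not at hcon
  have hdiag : ∀ g, s.diag₁ g * s.diag₂ g ≠ 0 := fun g => by
    have h1 := s.det_eq g
    rw [hcon g, sub_zero] at h1
    rw [h1]
    exact left_ne_zero_of_mul_eq_one (P.det_mul_inv g)
  have hor : ∀ g, (∀ w, s.off g w = 0) ∨ (∀ w, s.off w g = 0) := fun g => by
    by_contra hne
    push Not at hne
    obtain ⟨⟨w, hw⟩, v, hv⟩ := hne
    exact mul_ne_zero hw hv (by rw [s.off_cross g w v g, hcon g, mul_zero])
  obtain ⟨g, x, hgx⟩ := h
  have hg2 : ∀ w, s.off w g = 0 := (hor g).resolve_left fun h1 => hgx (h1 x)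
  have hx1 : ∀ w, s.off x w = 0 := (hor x).resolve_right fun h1 => hgx (h1 g)
  rcases hor (g * x) with h1 | h1
  · have h2 := h1 x
    rw [s.off_mul_left, hcon x, mul_zero, zero_add] at h2
    exact mul_ne_zero hgx (right_ne_zero_of_mul (hdiag x)) h2
  · have h2 := h1 g
    rw [s.off_mul_right, hcon g, zero_mul, zero_add] at h2
    exact mul_ne_zero (right_ne_zero_of_mul (hdiag g)) hgx h2

theorem det_ne_zero_of_pseudo (P : PseudoChar G k) (g : G) : P.det g ≠ 0 :=
  left_ne_zero_of_mul_eq_one (P.det_mul_inv g)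

/-- All elements have a single eigenvalue: the eigenvalue is a character. -/
theorem exists_rep_of_repeated (P : PseudoChar G k)
    (h : ∀ c, ∃ l, l + l = P.tr c ∧ l * l = P.det c) :
    ∃ ρ : G →* Matrix (Fin 2) (Fin 2) k, (∀ g, (ρ g).trace = P.tr g) ∧
      (∀ g, (ρ g).det = P.det g) ∧
      ∀ τ, (∀ g, P.tr (g * τ) = P.tr g) → P.det τ = 1 → ρ τ = 1 := by
  choose l hl hl2 using h
  have huniq : ∀ c x, x + x = P.tr c → x * x = P.det c → x = l c := fun c x hx hx2 => by
    have h2 : (x - l c) * (x - l c) = 0 := by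
      linear_combination hx2 + hl2 c - l c * (hx - hl c) - 2 * hl2 c
    exact sub_eq_zero.1 (mul_self_eq_zero.1 h2)
  have h1 : l 1 = 1 := (huniq 1 1 (by rw [P.tr_one]; ring) (by rw [map_one, mul_one])).symm
  have hmul : ∀ g h, l (g * h) = l g * l h := fun g h => by
    refine (huniq _ _ ?_ (by rw [map_mul, ← hl2, ← hl2]; ring)).symm
    by_cases h2 : (2 : k) = 0
    · rw [← hl (g * h)]; linear_combination (l g * l h - l (g * h)) * h2
    · have e1 := P.tr_mul g h
      rw [← hl (g * h), ← hl (g * h⁻¹), ← hl g, ← hl h] at e1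
      have e2 : l (g * h) * l (g * h) = (l g * l h) * (l g * l h) := by
        rw [hl2, map_mul, ← hl2, ← hl2]; ring
      have e3 : (P.det h * l (g * h⁻¹)) * (P.det h * l (g * h⁻¹)) = (l g * l h) * (l g * l h) := by
        rw [show (P.det h * l (g * h⁻¹)) * (P.det h * l (g * h⁻¹)) =
          P.det h * P.det h * (l (g * h⁻¹) * l (g * h⁻¹)) by ring, hl2, map_mul, ← hl2 g]
        linear_combination (l g * l g * P.det h) * P.det_mul_inv h - (l g * l g) * hl2 h
      have e4 : l (g * h) + P.det h * l (g * h⁻¹) = 2 * (l g * l h) :=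
        mul_left_cancel₀ h2 (by linear_combination e1)
      have e5 : l (g * h) = l g * l h := by
        have hx0 : l g * l h ≠ 0 := fun h0 => det_ne_zero_of_pseudo P (g * h) (by
          rw [← hl2, e2, h0, zero_mul])
        have e6 : 4 * (l g * l h) * (l (g * h) - l g * l h) = 0 := by
          linear_combination e2 - e3 + (P.det h * l (g * h⁻¹) - l (g * h) + 2 * (l g * l h)) * e4
        rcases mul_eq_zero.1 e6 with h4 | h4
        · exact absurd h4 (mul_ne_zero (by
            rw [show (4 : k) = 2 * 2 by norm_num]; exact mul_ne_zero h2 h2) hx0)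
        · exact sub_eq_zero.1 h4
      rw [← hl (g * h), e5]
  let χ : G →* k := { toFun := l, map_one' := h1, map_mul' := hmul }
  refine ⟨(Matrix.scalar (Fin 2)).toMonoidHom.comp χ, fun g => ?_, fun g => ?_, fun τ hτ hd => ?_⟩
  · rw [Matrix.trace_fin_two, ← hl g]; simp [χ]
  · rw [Matrix.det_fin_two, ← hl2 g]; simp [χ]
  · have h2 := hτ 1
    rw [one_mul, P.tr_one] at h2
    have : l τ = 1 := (huniq τ 1 (by rw [h2]; ring) (by rw [hd, mul_one])).symm
    simp [χ, this]

section Quadratic

variable {K : Type*} [Field K] [Algebra k K]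

/-- Descent of a split representation along a quadratic extension. -/
theorem exists_rep_of_conj (P : PseudoChar G k) (σ : K ≃ₐ[k] K) (hinv : ∀ z, σ (σ z) = z)
    (hfix : ∀ z, σ z = z → ∃ x, algebraMap k K x = z)
    (hnorm : ∀ x : k, ∃ w, w * σ w = algebraMap k K x)
    (c : G) (l : K) (hσl : σ l ≠ l) (hadd : l + σ l = algebraMap k K (P.tr c))
    (hmul : l * σ l = algebraMap k K (P.det c)) :
    ∃ ρ : G →* Matrix (Fin 2) (Fin 2) k, (∀ g, (ρ g).trace = P.tr g) ∧
      (∀ g, (ρ g).det = P.det g) ∧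
      ∀ τ, (∀ g, P.tr (g * τ) = P.tr g) → P.det τ = 1 → ρ τ = 1 := by
  classical
  set ι := algebraMap k K
  set m := σ l with hm
  have hlm : l - m ≠ 0 := sub_ne_zero.2 (Ne.symm hσl)
  have hr : (l - m)⁻¹ * (l - m) = 1 := inv_mul_cancel₀ hlm
  let P' := P.map ι
  set s := PseudoChar.splitData (P := P') c l m hr hadd hmul with hs
  have hd1 : ∀ g, s.diag₁ g = (l - m)⁻¹ * (ι (P.tr (c * g)) - m * ι (P.tr g)) := fun g => by
    show P'.linExt ((l - m)⁻¹ • (MonoidAlgebra.of K G c - m • 1) * MonoidAlgebra.of K G g) = _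
    rw [smul_mul_assoc, sub_mul, smul_mul_assoc, one_mul, ← map_mul, map_smul, map_sub, map_smul,
      MonoidAlgebra.of_apply, MonoidAlgebra.of_apply, P'.linExt_single, P'.linExt_single]
    simp only [smul_eq_mul, one_mul]
    rfl
  have hσr : σ (l - m)⁻¹ = -(l - m)⁻¹ := by
    rw [map_inv₀, map_sub, hm, hinv, ← inv_neg, neg_sub]
  have hσ1 : ∀ g, σ (s.diag₁ g) = s.diag₂ g := fun g => by
    have h2 : s.diag₁ g + s.diag₂ g = ι (P.tr g) := s.diag_add g
    rw [eq_sub_of_add_eq' h2, hd1, map_mul, map_sub, map_mul, hσr, AlgEquiv.commutes,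
      AlgEquiv.commutes, hm, hinv, ← hm]
    linear_combination ι (P.tr g) * hr
  have hσ2 : ∀ g, σ (s.diag₂ g) = s.diag₁ g := fun g => by rw [← hσ1, hinv]
  have hσX : ∀ g h, σ (s.off g h) = s.off h g := fun g h => by
    have h1 := s.diag₁_mul g h
    have h2 := s.diag₂_mul g h
    rw [eq_sub_of_add_eq' h1.symm, map_sub, map_mul, hσ1, hσ1, hσ1]
    linear_combination h2
  obtain ⟨g₀, w, hw, hrel⟩ : ∃ (g₀ : G) (w : K), w ≠ 0 ∧
      ∀ g h, s.off g g₀ * (w * σ w) * s.off g₀ h = s.off g h := by
    by_cases h0 : ∃ g h, s.off g h ≠ 0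
    · obtain ⟨g₀, hg₀⟩ := s.exists_off_self_ne h0
      obtain ⟨x, hx⟩ := hfix (s.off g₀ g₀)⁻¹ (by rw [map_inv₀, hσX])
      obtain ⟨w, hw⟩ := hnorm x
      rw [hx] at hw
      refine ⟨g₀, w, left_ne_zero_of_mul (hw ▸ inv_ne_zero hg₀), fun g h => ?_⟩
      rw [hw]
      field_simp
      linear_combination s.off_cross g g₀ g₀ h
    · push Not at h0
      exact ⟨1, 1, one_ne_zero, fun g h => by simp [h0]⟩
  let R := s.matrixRep g₀ g₀ (w * σ w) hrel
  let Q : Matrix (Fin 2) (Fin 2) K := !![w, w * m; 1, l]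
  let S : Matrix (Fin 2) (Fin 2) K := !![0, w * σ w; 1, 0]
  have hQdet : IsUnit Q.det := by
    rw [Matrix.det_fin_two_of]
    exact isUnit_iff_ne_zero.2 fun h0 => mul_ne_zero hw hlm (by linear_combination h0)
  have hQ : IsUnit Q := (Matrix.isUnit_iff_isUnit_det Q).2 hQdet
  obtain ⟨u, hu⟩ := hQ
  let conj : Matrix (Fin 2) (Fin 2) K →* Matrix (Fin 2) (Fin 2) K :=
    { toFun := fun X => (↑u⁻¹ : Matrix (Fin 2) (Fin 2) K) * X * ↑u
      map_one' := by simp
      map_mul' := fun X Y => by
        simp only [mul_assoc, Units.mul_inv_cancel_left] }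
  let M := conj.comp R
  have hRQ : ∀ g, R g * Q = Q * M g := fun g => by
    show R g * Q = Q * ((↑u⁻¹ : Matrix (Fin 2) (Fin 2) K) * R g * (u : Matrix (Fin 2) (Fin 2) K))
    rw [← hu]
    simp only [mul_assoc, Units.mul_inv_cancel_left]
  have hσR : ∀ g, (R g).map σ * S = S * R g := fun g => by
    show (!![s.diag₁ g, s.off g g₀ * (w * σ w); s.off g₀ g, s.diag₂ g]).map σ *
      !![0, w * σ w; 1, 0] = !![0, w * σ w; 1, 0] *
        !![s.diag₁ g, s.off g g₀ * (w * σ w); s.off g₀ g, s.diag₂ g]
    ext i j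
    fin_cases i <;> fin_cases j <;> simp [Matrix.mul_apply, Fin.sum_univ_two, hσ1, hσ2, hσX, hinv] <;>
      ring
  have hσQ : Q.map σ = w⁻¹ • (S * Q) := by
    ext i j
    fin_cases i <;> fin_cases j <;>
      simp [Q, S, hm, hinv] <;> field_simp
  have hmapmul : ∀ X Y : Matrix (Fin 2) (Fin 2) K, (X * Y).map σ = X.map σ * Y.map σ := fun X Y =>
    Matrix.map_mul (f := (σ : K →+* K))
  have hfixM : ∀ g, (M g).map σ = M g := fun g => by
    have h1 : (R g).map σ * Q.map σ = Q.map σ * (M g).map σ := by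
      rw [← hmapmul, ← hmapmul, hRQ]
    have h2 : Q.map σ * (M g).map σ = Q.map σ * M g := by
      rw [← h1, hσQ, Matrix.mul_smul, Matrix.smul_mul, ← mul_assoc, hσR, mul_assoc, hRQ, mul_assoc]
    refine (IsUnit.mul_right_inj ?_).1 h2
    rw [Matrix.isUnit_iff_isUnit_det]
    have : (Q.map σ).det = σ Q.det := ((σ : K →+* K).map_det Q).symm
    rw [this]
    exact hQdet.map σ
  choose ρ0 hρ0 using fun g i j => hfix (M g i j) (congrFun (congrFun (hfixM g) i) j)
  have hinj : Function.Injective fun X : Matrix (Fin 2) (Fin 2) k => X.map ι :=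
    Matrix.map_injective ι.injective
  have hmap : ∀ g, (Matrix.of (ρ0 g)).map ι = M g := fun g => by
    ext i j; exact hρ0 g i j
  let ρ : G →* Matrix (Fin 2) (Fin 2) k :=
    { toFun := fun g => Matrix.of (ρ0 g)
      map_one' := hinj (by
        show (Matrix.of (ρ0 1)).map ι = (1 : Matrix (Fin 2) (Fin 2) k).map ι
        rw [hmap, map_one, Matrix.map_one ι (map_zero ι) (map_one ι)])
      map_mul' := fun g h => hinj (by
        show (Matrix.of (ρ0 (g * h))).map ι = (Matrix.of (ρ0 g) * Matrix.of (ρ0 h)).map ι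
        rw [Matrix.map_mul, hmap, hmap, hmap, map_mul]) }
  have hρ : ∀ g, (ρ g).map ι = M g := hmap
  have htr : ∀ g, (M g).trace = ι (P.tr g) := fun g => by
    show ((↑u⁻¹ : Matrix (Fin 2) (Fin 2) K) * R g * (u : Matrix (Fin 2) (Fin 2) K)).trace = _
    rw [Matrix.trace_mul_cycle, Units.mul_inv, one_mul]
    exact s.trace_matrixRep g₀ g₀ _ hrel g
  have hdet : ∀ g, (M g).det = ι (P.det g) := fun g => by
    show ((↑u⁻¹ : Matrix (Fin 2) (Fin 2) K) * R g * (u : Matrix (Fin 2) (Fin 2) K)).det = _
    rw [Matrix.det_units_conj']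
    exact s.det_matrixRep g₀ g₀ _ hrel g
  refine ⟨ρ, fun g => ι.injective ?_, fun g => ι.injective ?_, fun τ hτ _ => hinj ?_⟩
  · rw [← htr, ← hρ]
    exact AddMonoidHom.map_trace ι.toAddMonoidHom (ρ g)
  · rw [← hdet, ← hρ]
    exact ι.map_det _
  · show (ρ τ).map ι = (1 : Matrix (Fin 2) (Fin 2) k).map ι
    rw [hρ, Matrix.map_one ι (map_zero ι) (map_one ι), ← map_one M]
    have hT : ∀ g, s.diag₁ (g * τ) = s.diag₁ g := fun g => by
      rw [hd1, hd1, ← mul_assoc, hτ, hτ]
    have hτ1 : s.diag₁ τ = 1 := by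
      have := hT 1
      rwa [one_mul, s.diag₁_one] at this
    have hleft : ∀ g, s.off g τ = 0 := fun g => by
      have := s.diag₁_mul g τ
      rw [hT, hτ1, mul_one] at this
      linear_combination -this
    have hright : ∀ g, s.off τ g = 0 := fun g => by rw [← hσX, hleft, map_zero]
    show conj (R τ) = conj (R 1)
    congr 1
    show (!![s.diag₁ τ, s.off τ g₀ * (w * σ w); s.off g₀ τ, s.diag₂ τ]) = R 1
    rw [map_one, ← hσ1, hτ1, hleft, hright, map_one, zero_mul, Matrix.one_fin_two]

end Quadratic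

/-- Every element of a finite field is a norm from a quadratic extension. -/
theorem exists_norm_eq [Finite k] {K : Type*} [Field K] [Algebra k K] {a d : k} {l m : K}
    (hadd : l + m = algebraMap k K a) (hmul : l * m = algebraMap k K d) (hlm : l ≠ m)
    (σ : K →ₐ[k] K) (hσ : σ l = m) (x : k) :
    ∃ w, w * σ w = algebraMap k K x := by
  have := Fintype.ofFinite k
  by_cases hchar : ringChar k = 2
  · obtain ⟨u, hu⟩ := FiniteField.isSquare_of_char_two hchar x
    exact ⟨algebraMap k K u, by rw [σ.commutes, ← map_mul, ← hu]⟩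
  · have h2 : (2 : k) ≠ 0 := Ring.two_ne_zero hchar
    have hD : d - a ^ 2 / 4 ≠ 0 := by
      intro h0
      have h1 : (l - m) ^ 2 = 0 := by
        rw [show (l - m) ^ 2 = (l + m) ^ 2 - 4 * (l * m) by ring, hadd, hmul,
          show (4 : K) = algebraMap k K 4 from (map_ofNat _ 4).symm, ← map_pow, ← map_mul, ← map_sub,
          show a ^ 2 - 4 * d = 0 from ?_, map_zero]
        have h4 : (4 : k) ≠ 0 := by rw [show (4 : k) = 2 * 2 by norm_num]; exact mul_ne_zero h2 h2
        field_simp at h0
        linear_combination -h0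
      exact hlm (sub_eq_zero.1 (pow_eq_zero_iff two_ne_zero |>.1 h1))
    obtain ⟨u, v, huv⟩ := FiniteField.exists_root_sum_quadratic
      (f := X ^ 2 - C x) (g := C (d - a ^ 2 / 4) * X ^ 2)
      (degree_X_pow_sub_C two_pos _) (degree_C_mul_X_pow 2 hD)
      (FiniteField.odd_card_of_char_ne_two hchar)
    simp only [eval_sub, eval_pow, eval_X, eval_C, eval_mul] at huv
    refine ⟨algebraMap k K (u - a * v / 2) + algebraMap k K v * l, ?_⟩
    rw [map_add, map_mul, σ.commutes, σ.commutes, hσ]
    set y := u - a * v / 2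
    have hy : (algebraMap k K y + algebraMap k K v * l) * (algebraMap k K y + algebraMap k K v * m) =
        algebraMap k K (y * y + y * v * a + v * v * d) := by
      simp only [map_add, map_mul, ← hadd, ← hmul]; ring
    rw [hy]
    congr 1
    have h4 : (4 : k) ≠ 0 := by rw [show (4 : k) = 2 * 2 by norm_num]; exact mul_ne_zero h2 h2
    simp only [y]
    field_simp at huv ⊢
    linear_combination huv

/-- Every two dimensional pseudo-character over a finite field comes from a representation. -/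
theorem exists_rep_of_finite [Finite k] (P : PseudoChar G k) :
    ∃ ρ : G →* Matrix (Fin 2) (Fin 2) k, (∀ g, (ρ g).trace = P.tr g) ∧
      (∀ g, (ρ g).det = P.det g) ∧
      ∀ τ, (∀ g, P.tr (g * τ) = P.tr g) → P.det τ = 1 → ρ τ = 1 := by
  classical
  by_cases hsplit : ∃ (c : G) (l m : k), l ≠ m ∧ l + m = P.tr c ∧ l * m = P.det c
  · obtain ⟨c, l, m, hlm, hadd, hmul⟩ := hsplit
    obtain ⟨ρ, htr, hdet, hspan⟩ := exists_rep_of_split P c hlm hadd hmul
    refine ⟨ρ, htr, hdet, fun τ hτ _ => ?_⟩
    rw [← map_one ρ]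
    ext i j
    have key : ∀ f ∈ Submodule.span k (Set.range fun w : G => fun g => P.tr (w * g)), f τ = f 1 := by
      intro f hf
      induction hf using Submodule.span_induction with
      | mem f hf => obtain ⟨w, rfl⟩ := hf; simpa using hτ w
      | zero => rfl
      | add f g _ _ hf hg => simp [hf, hg]
      | smul r f _ hf => simp [hf]
    exact key _ (hspan i j)
  push Not at hsplit
  by_cases hroot : ∀ c, ∃ l, l * l - P.tr c * l + P.det c = 0
  · refine exists_rep_of_repeated P fun c => ?_
    obtain ⟨l, hl⟩ := hroot c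
    by_cases h : l = P.tr c - l
    · exact ⟨l, by linear_combination h, by linear_combination -hl + l * h⟩
    · exact absurd (by linear_combination -hl : l * (P.tr c - l) = P.det c)
        (hsplit c l (P.tr c - l) h (by ring))
  push Not at hroot
  obtain ⟨c, hc⟩ := hroot
  set a := P.tr c
  set d := P.det c
  set q : k[X] := X ^ 2 - C a * X + C d with hq
  have hq' : q.Monic := by rw [hq]; monicity!
  have hdeg : q.natDegree = 2 := by rw [hq]; compute_degree!
  have hirr : Irreducible q := by
    refine (Polynomial.irreducible_iff_roots_eq_zero_of_degree_le_three hdeg.ge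
      (hdeg.le.trans (by norm_num))).2 (Multiset.eq_zero_of_forall_notMem fun x hx => hc x ?_)
    have := (Polynomial.mem_roots hq'.ne_zero).1 hx
    simp only [IsRoot.def, hq, eval_add, eval_sub, eval_pow, eval_X, eval_mul, eval_C] at this
    linear_combination this
  have := Fact.mk hirr
  let K := AdjoinRoot q
  set l : K := AdjoinRoot.root q with hl
  have hrel : l * l - algebraMap k K a * l + algebraMap k K d = 0 := by
    have := AdjoinRoot.aeval_eq (f := q) q
    rw [AdjoinRoot.mk_self] at this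
    rw [hl]; simp only [hq, map_add, map_sub, map_mul, map_pow, aeval_X, aeval_C] at this; linear_combination this
  have hl' : eval₂ (Algebra.ofId k K).toRingHom (algebraMap k K a - l) q = 0 := by
    show eval₂ (algebraMap k K) _ q = 0
    simp only [hq, eval₂_add, eval₂_sub, eval₂_mul, eval₂_X, eval₂_C, eval₂_pow]
    linear_combination hrel
  let σ : K →ₐ[k] K := AdjoinRoot.liftAlgHom q (Algebra.ofId k K) (algebraMap k K a - l) hl'
  have hσl : σ l = algebraMap k K a - l := AdjoinRoot.lift_root hl'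
  have hinv : ∀ z, σ (σ z) = z := fun z => by
    have h : σ.comp σ = AlgHom.id k K := AdjoinRoot.algHom_ext (by
      show σ (σ l) = l
      rw [hσl, map_sub, σ.commutes, hσl, sub_sub_cancel])
    exact AlgHom.congr_fun h z
  have hne : σ l ≠ l := by
    rw [hσl]
    intro h
    have h1 := PerfectField.separable_of_irreducible hirr
    have h2 : Polynomial.aeval l (derivative q) = 0 := by
      simp only [hq, derivative_pow, derivative_X, derivative_mul,
        derivative_C, map_add, map_sub, map_mul, map_pow, aeval_X, aeval_C, map_one, map_zero]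
      norm_num [map_ofNat]
      linear_combination -h
    exact h1.aeval_derivative_ne_zero (by rw [AdjoinRoot.aeval_eq, AdjoinRoot.mk_self]) h2
  let e : K ≃ₐ[k] K := AlgEquiv.ofAlgHom σ σ (AlgHom.ext hinv) (AlgHom.ext hinv)
  refine exists_rep_of_conj P e hinv (fun z hz => ?_) (fun x => ?_) c l hne ?_ ?_
  · obtain ⟨p, rfl⟩ := AdjoinRoot.mk_surjective z
    have hr : AdjoinRoot.mk q p = AdjoinRoot.mk q (p %ₘ q) := by
      rw [AdjoinRoot.mk_eq_mk]
      exact ⟨p /ₘ q, by linear_combination -(modByMonic_add_div p q)⟩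
    have hd : (p %ₘ q).natDegree < 2 :=
      hdeg ▸ natDegree_modByMonic_lt p hq' (fun h => by rw [h, natDegree_one] at hdeg; omega)
    obtain ⟨u, v, huv⟩ : ∃ u v, p %ₘ q = C u * X + C v :=
      exists_eq_X_add_C_of_natDegree_le_one (by omega)
    rw [hr, huv, map_add, map_mul, AdjoinRoot.mk_C, AdjoinRoot.mk_C, AdjoinRoot.mk_X] at hz ⊢
    rw [← AdjoinRoot.algebraMap_eq, ← hl] at hz ⊢
    change σ (algebraMap k K u * l + algebraMap k K v) = _ at hz
    rw [map_add, map_mul, σ.commutes, σ.commutes, add_left_inj] at hz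
    have hu : u = 0 := by
      by_contra hu
      exact hne (mul_left_cancel₀ (by simpa using hu) hz)
    exact ⟨v, by rw [hu, map_zero, zero_mul, zero_add]⟩
  · exact exists_norm_eq (a := a) (d := d) (l := l) (m := σ l) (by rw [hσl]; ring)
      (by rw [hσl]; linear_combination -hrel) hne.symm σ rfl x
  · show l + σ l = _
    rw [hσl]; ring
  · show l * σ l = _
    rw [hσl]; linear_combination -hrel

end FLTAgent.EigenReps
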