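import Fermat.Agent.EigenReps.Approx
import Fermat.Agent.EigenReps.FiniteField
import Fermat.Agent.EigenReps.Unramified
import Fermat.Agent.CuspForms.EigenChar

/-!
# Residual representations attached to eigenforms

The pseudo-character of the eigenvalue system modulo a prime over `p` takes values in a finite
field, where it is the character of an actual representation.
-/

set_option autoImplicit false

noncomputable section

set_option synthInstance.maxHeartbeats 400000
set_option maxHeartbeats 1000000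
set_option linter.style.haveILetI false

open Polynomial CongruenceSubgroup

namespace FLTAgent.EigenReps

local notation "LL" => AlgebraicClosure ℚ
local notation "GG" => (AlgebraicClosure ℚ ≃ₐ[ℚ] AlgebraicClosure ℚ)
local notation "ZZbar" => integralClosure ℤ ℂ

variable {N : ℕ} [NeZero N] {g : CuspForm (Gamma0 N) 2}

/-- The eigenvalue system of a normalised eigenform outside a set of primes. -/
def eigenCharAway (hg : g.IsNormalizedEigenform) (S : Set ℕ) :
    CuspForm.heckeAlgebra N 2 S →+* ℂ :=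
  (CuspForms.eigenChar hg).comp
    (Subalgebra.inclusion (CuspForm.heckeAlgebra_mono (Set.empty_subset S))).toRingHom

theorem isIntegral_eigenCharAway (hg : g.IsNormalizedEigenform) (S : Set ℕ)
    (t : CuspForm.heckeAlgebra N 2 S) : IsIntegral ℤ (eigenCharAway hg S t) := by
  haveI := CuspForms.moduleFinite_heckeAlgebra N 2 S
  exact (Algebra.IsIntegral.isIntegral (R := ℤ) t).map (eigenCharAway hg S).toIntAlgHom

/-- The eigenvalue system with values in the algebraic integers. -/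
def eigenCharInt (hg : g.IsNormalizedEigenform) (S : Set ℕ) :
    CuspForm.heckeAlgebra N 2 S →+* ZZbar :=
  (eigenCharAway hg S).codRestrict (integralClosure ℤ ℂ).toSubring
    (isIntegral_eigenCharAway hg S)

theorem coe_eigenCharInt_T (hg : g.IsNormalizedEigenform) {S : Set ℕ} {ℓ : ℕ} (hℓ : ℓ.Prime)
    (hℓN : ¬ ℓ ∣ N) (hℓS : ℓ ∉ S) :
    ((eigenCharInt hg S (CuspForm.heckeAlgebra.T hℓ hℓN hℓS) : ZZbar) : ℂ) =
      ModularFormClass.qCoeff g ℓ := by
  show eigenCharAway hg S _ = _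
  rw [← CuspForms.eigenChar_heckeGen hg ℓ hℓ]
  show CuspForms.eigenChar hg _ = _
  congr 1
  rw [CuspForms.heckeGen, dif_neg hℓN]
  rfl

/-- The range of a map from a finitely generated group to a ring of prime characteristic is
finite. -/
theorem finite_range {A k : Type*} [Ring A] [Module.Finite ℤ A] [Ring k] {p : ℕ} [CharP k p]
    [NeZero p] (θ : A →+* k) : Finite θ.range := by
  haveI : Module.Finite ℤ θ.range :=
    Module.Finite.of_surjective θ.rangeRestrict.toAddMonoidHom.toIntLinearMap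
      θ.rangeRestrict_surjective
  refine Module.finite_of_fg_torsion θ.range fun {x} => ⟨⟨(p : ℤ),
    mem_nonZeroDivisors_of_ne_zero (Int.natCast_ne_zero.mpr (NeZero.ne p))⟩, Subtype.ext ?_⟩
  show (p : ℤ) • (x : k) = 0
  rw [natCast_zsmul, nsmul_eq_mul, CharP.cast_eq_zero, zero_mul]

/-- The residual representation of a normalised eigenform, as matrices. -/
theorem exists_residual (hg : g.IsNormalizedEigenform) {p : ℕ} [hp : Fact p.Prime] {k : Type}
    [Field k] [CharP k p] (φ : ZZbar →+* k) :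
    ∃ r : GG →* Matrix (Fin 2) (Fin 2) k,
      (∃ L : IntermediateField ℚ LL, FiniteDimensional ℚ L ∧
        ∀ τ : GG, (∀ a ∈ L, τ a = a) → r τ = 1) ∧
      (∀ ℓ : ℕ, ℓ.Prime → ¬ ℓ ∣ N → ℓ ≠ p → ∀ A : ValuationSubring LL, A.LiesOverPrime ℓ →
        ∀ τ ∈ A.inertiaSubgroupIn ℚ, r τ = 1) ∧
      ∀ ℓ : ℕ, ℓ.Prime → ¬ ℓ ∣ N → ℓ ≠ p → ∀ A : ValuationSubring LL, A.LiesOverPrime ℓ →
        ∀ τ : GG, A.IsFrobeniusAt τ ℓ →
          ∃ a : ZZbar, (a : ℂ) = ModularFormClass.qCoeff g ℓ ∧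
            (r τ).trace = φ a ∧ (r τ).det = (ℓ : k) := by
  classical
  set S : Finset ℕ := insert p N.primeFactors
  have hpS : p ∈ S := Finset.mem_insert_self _ _
  have hNS : ∀ q : ℕ, q.Prime → q ∣ N → q ∈ S := fun q hq hqN =>
    Finset.mem_insert_of_mem (Nat.mem_primeFactors.mpr ⟨hq, hqN, NeZero.ne N⟩)
  set θ₀ : CuspForm.heckeAlgebra N 2 (↑S : Set ℕ) →+* k := φ.comp (eigenCharInt hg _)
  haveI := CuspForms.moduleFinite_heckeAlgebra N 2 (↑S : Set ℕ)
  haveI : NeZero p := ⟨hp.out.ne_zero⟩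
  haveI : Finite θ₀.range := finite_range (p := p) θ₀
  letI : Field θ₀.range := (Finite.isField_of_domain θ₀.range).toField
  have he : ((p : θ₀.range)) ^ 1 = 0 := by
    rw [pow_one]
    exact Subtype.ext (by simp)
  set P := pseudoChar N S p hpS hNS θ₀.rangeRestrict he
  obtain ⟨ρ, htr, hdet, htriv⟩ := exists_rep_of_finite P
  set r : GG →* Matrix (Fin 2) (Fin 2) k := θ₀.range.subtype.mapMatrix.toMonoidHom.comp ρ
  have hr1 : ∀ τ, ρ τ = 1 → r τ = 1 := fun τ h => by
    show θ₀.range.subtype.mapMatrix (ρ τ) = 1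
    rw [h, map_one]
  refine ⟨r, ?_, ?_, ?_⟩
  · obtain ⟨L, hL, hfix⟩ := exists_pseudoChar_level N S p hpS hNS θ₀.rangeRestrict he
    exact ⟨L, hL, fun τ hτ => hr1 τ (htriv τ (hfix τ hτ).2 (hfix τ hτ).1)⟩
  · intro ℓ hℓ hℓN hℓp A hA τ hτ
    have h := pseudoChar_inertia N S p hpS hNS θ₀.rangeRestrict he hℓ hℓN hℓp hA hτ
    exact hr1 τ (htriv τ h.2 h.1)
  · intro ℓ hℓ hℓN hℓp A hA τ hτ
    have hℓS : ℓ ∉ (↑S : Set ℕ) := fun h =>
      (Finset.mem_insert.mp h).elim hℓp fun h' => hℓN (Nat.mem_primeFactors.mp h').2.1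
    obtain ⟨h1, h2⟩ := pseudoChar_frobenius N S p hpS hNS θ₀.rangeRestrict he hℓ hℓN hℓS hA hτ
    refine ⟨eigenCharInt hg _ (CuspForm.heckeAlgebra.T hℓ hℓN hℓS),
      coe_eigenCharInt_T hg hℓ hℓN hℓS, ?_, ?_⟩
    · have := congrArg θ₀.range.subtype ((htr τ).trans h1)
      rw [Matrix.trace_fin_two, map_add] at this
      rw [Matrix.trace_fin_two]
      exact this
    · have := congrArg θ₀.range.subtype ((hdet τ).trans h2)
      rw [RingHom.map_det, map_natCast] at this
      exact this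

/-- A two-dimensional matrix representation of finite level as a residual representation. -/
def residualOfMatrix {k : Type} [Field k] (r : GG →* Matrix (Fin 2) (Fin 2) k)
    (h : ∃ L : IntermediateField ℚ LL, FiniteDimensional ℚ L ∧
      ∀ τ : GG, (∀ a ∈ L, τ a = a) → r τ = 1) : ResidualGaloisRep k where
  V := Fin 2 → k
  finrank_eq := by simp
  ρ := (Matrix.toLinAlgEquiv' (R := k) (n := Fin 2)).toRingEquiv.toRingHom.toMonoidHom.comp r
  factorsThroughFiniteLevel := by
    obtain ⟨L, hL, hfix⟩ := h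
    refine ⟨L, hL, fun τ hτ => ?_⟩
    show Matrix.toLinAlgEquiv' (r τ) = 1
    rw [hfix τ hτ, map_one]

theorem residualOfMatrix_apply {k : Type} [Field k] (r : GG →* Matrix (Fin 2) (Fin 2) k)
    (h : ∃ L : IntermediateField ℚ LL, FiniteDimensional ℚ L ∧
      ∀ τ : GG, (∀ a ∈ L, τ a = a) → r τ = 1) (τ : GG) :
    LinearMap.charpoly ((residualOfMatrix r h).ρ τ) =
      X ^ 2 - C (r τ).trace * X + C (r τ).det := by
  show LinearMap.charpoly (Matrix.toLin' (r τ)) = _
  rw [Matrix.charpoly_toLin', Matrix.charpoly_fin_two]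

/-- Residual representations attached to normalised eigenforms exist. -/
theorem exists_residualGaloisRep {M : ℕ} {f : CuspForm (Gamma0 M) 2}
    (hf : f.IsNormalizedEigenform) {p : ℕ} (hp : p.Prime) {k : Type} [Field k] [CharP k p]
    (φ : ZZbar →+* k) :
    ∃ ρ : ResidualGaloisRep k, ρ.IsAttachedTo f φ ∧
      ∀ ℓ : ℕ, ℓ.Prime → ¬ ℓ ∣ M * p → ρ.IsUnramifiedAt ℓ := by
  rcases eq_or_ne M 0 with rfl | hM
  · exact ⟨residualOfMatrix 1 ⟨⊥, inferInstance, fun τ _ => rfl⟩,
      fun ℓ _ hℓ => absurd (dvd_zero ℓ) hℓ,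
      fun ℓ _ hℓ => absurd (by simp) hℓ⟩
  haveI : NeZero M := ⟨hM⟩
  haveI : Fact p.Prime := ⟨hp⟩
  obtain ⟨r, hL, hunr, hfrob⟩ := exists_residual hf φ
  refine ⟨residualOfMatrix r hL, fun ℓ hℓ hℓM hℓk A hA τ hτ => ?_,
    fun ℓ hℓ hℓM A hA τ hτ => ?_⟩
  · obtain ⟨a, ha, htr, hdet⟩ := hfrob ℓ hℓ hℓM
      (fun h => hℓk (h ▸ CharP.cast_eq_zero k p)) A hA τ hτ
    exact ⟨a, ha, by rw [residualOfMatrix_apply, htr, hdet]⟩
  · show Matrix.toLinAlgEquiv' (r τ) = 1
    rw [hunr ℓ hℓ (fun h => hℓM (h.mul_right p))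
      (fun h => hℓM (h ▸ Dvd.intro_left M rfl)) A hA τ hτ, map_one]

end FLTAgent.EigenReps
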